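import Mathlib

set_option autoImplicit false
set_option linter.unusedVariables false

namespace Fermat.Agent.S51

/-! ### Elementary lemmas -/

lemma three_dvd_of_sq_add_sq {a b : ℤ} (h : (3 : ℤ) ∣ a ^ 2 + b ^ 2) : (3 : ℤ) ∣ a ∧ (3 : ℤ) ∣ b := by
  have key : ∀ x y : ZMod 3, x ^ 2 + y ^ 2 = 0 → x = 0 ∧ y = 0 := by decide
  have h' : ((a : ZMod 3)) ^ 2 + ((b : ZMod 3)) ^ 2 = 0 := by
    have := (ZMod.intCast_zmod_eq_zero_iff_dvd (a ^ 2 + b ^ 2) 3).mpr (by exact_mod_cast h)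
    push_cast at this
    exact this
  obtain ⟨ha, hb⟩ := key _ _ h'
  exact ⟨by exact_mod_cast (ZMod.intCast_zmod_eq_zero_iff_dvd a 3).mp ha,
    by exact_mod_cast (ZMod.intCast_zmod_eq_zero_iff_dvd b 3).mp hb⟩

lemma diff_sq_mod8 {a b n k : ℤ} (hn : Odd n) (hk : (8 : ℤ) ∣ k - 2) : a ^ 2 - b ^ 2 ≠ k * n ^ 2 := by
  intro h
  have key : ∀ x y z : ZMod 8, x ^ 2 - y ^ 2 = 2 * (2 * z + 1) ^ 2 → False := by decide
  obtain ⟨t, rfl⟩ := hn
  obtain ⟨j, hj⟩ := hk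
  have hk' : k = 8 * j + 2 := by linarith
  subst hk'
  apply key (a : ZMod 8) (b : ZMod 8) (t : ZMod 8)
  have := congrArg (fun z : ℤ => (z : ZMod 8)) h
  push_cast at this
  rw [this]
  have h8 : (8 : ZMod 8) = 0 := by decide
  rw [h8]; ring

lemma sq_of_pos_isCoprime {a b c : ℤ} (h : IsCoprime a b) (heq : a * b = c ^ 2) (ha : 0 < a) :
    ∃ a0 : ℤ, a = a0 ^ 2 := by
  obtain ⟨a0, h0 | h0⟩ := Int.sq_of_isCoprime h heq
  · exact ⟨a0, h0⟩
  · exfalso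
    have : 0 ≤ a0 ^ 2 := sq_nonneg a0
    linarith

lemma isCoprime_aux {t s c k : ℤ} (h1 : IsCoprime t s) (h2 : IsCoprime t c) :
    IsCoprime t ((k * t - s) * (t - c * s)) := by
  apply IsCoprime.mul_right
  · have := (h1.neg_right).add_mul_left_right k
    have e : k * t - s = -s + t * k := by ring
    rw [e]; exact this
  · have := ((h2.mul_right h1).neg_right).add_mul_left_right 1
    have e : t - c * s = -(c * s) + t * 1 := by ring
    rw [e]; exact this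

lemma chain_step {t s c k T : ℤ}
    (h : (3 * t) * ((k * (3 * t) - s) * (3 * t - (3 * c) * s)) = T ^ 2) :
    ∃ T' : ℤ, t * (((3 * k) * t - s) * (t - c * s)) = T' ^ 2 := by
  have h9 : (3 : ℤ) ^ 2 ∣ T ^ 2 := ⟨t * (((3 * k) * t - s) * (t - c * s)), by rw [← h]; ring⟩
  obtain ⟨T', rfl⟩ := (Int.pow_dvd_pow_iff two_ne_zero).mp h9
  refine ⟨T', ?_⟩
  have h9' : (9 : ℤ) ≠ 0 := by norm_num
  apply mul_left_cancel₀ h9'
  linear_combination h

lemma chain_contra {t e c k T : ℤ} (ht : ¬ (3 : ℤ) ∣ t) (he : ¬ (3 : ℤ) ∣ e)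
    (h : t * (((3 * k) * t - e ^ 2) * (t - (3 * c) * e ^ 2)) = T ^ 2) : False := by
  have h3 : (3 : ℤ) ∣ T ^ 2 + (e * t) ^ 2 :=
    ⟨t * (k * t ^ 2 - 3 * k * c * t * e ^ 2 + c * e ^ 4), by rw [← h]; ring⟩
  have := (three_dvd_of_sq_add_sq h3).2
  rcases (Int.prime_three.dvd_or_dvd this) with h | h
  · exact he h
  · exact ht h

/-- first part of the `2`-descent: the numerator is a square. -/
lemma num_square {r e R : ℤ} (hcop : IsCoprime r (e ^ 2)) (hr : 0 < r)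
    (h : r * ((r - e ^ 2) * (r - 81 * e ^ 2)) = R ^ 2) : ∃ a : ℤ, r = a ^ 2 := by
  have c3 : ∀ {t : ℤ}, ¬ (3 : ℤ) ∣ t → ∀ n : ℕ, IsCoprime t ((3 : ℤ) ^ n) := fun ht n =>
    (((Int.prime_three.coprime_iff_not_dvd).mpr ht).symm).pow_right
  by_cases h0 : (3 : ℤ) ∣ r
  swap
  · have hc : IsCoprime r ((1 * r - e ^ 2) * (r - 81 * e ^ 2)) :=
      isCoprime_aux hcop (by simpa using c3 h0 4)
    rw [one_mul] at hc
    exact sq_of_pos_isCoprime hc h hr
  obtain ⟨r₁, rfl⟩ := h0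
  have he : ¬ (3 : ℤ) ∣ e := by
    intro he
    have h3 : (3 : ℤ) ∣ e ^ 2 := Dvd.dvd.pow he two_ne_zero
    have := hcop.isUnit_of_dvd' (Dvd.intro r₁ rfl) h3
    exact Int.prime_three.not_isUnit this
  have hcop₁ : IsCoprime r₁ (e ^ 2) := hcop.of_mul_left_right
  have hr₁ : 0 < r₁ := by linarith
  obtain ⟨R₁, h₁⟩ := chain_step (t := r₁) (s := e ^ 2) (c := 27) (k := 1) (T := R)
    (by rw [← h]; ring)
  by_cases h1 : (3 : ℤ) ∣ r₁
  swap
  · exact (chain_contra (t := r₁) (e := e) (c := 9) (k := 1) (T := R₁) h1 he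
      (by rw [← h₁]; ring)).elim
  obtain ⟨r₂, rfl⟩ := h1
  have hcop₂ : IsCoprime r₂ (e ^ 2) := hcop₁.of_mul_left_right
  have hr₂ : 0 < r₂ := by linarith
  obtain ⟨R₂, h₂⟩ := chain_step (t := r₂) (s := e ^ 2) (c := 9) (k := 3) (T := R₁)
    (by rw [← h₁]; ring)
  by_cases h2 : (3 : ℤ) ∣ r₂
  swap
  · have hc : IsCoprime r₂ ((3 * 3 * r₂ - e ^ 2) * (r₂ - 9 * e ^ 2)) :=
      isCoprime_aux hcop₂ (by simpa using c3 h2 2)
    obtain ⟨a, ha⟩ := sq_of_pos_isCoprime hc h₂ hr₂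
    exact ⟨3 * a, by rw [ha]; ring⟩
  obtain ⟨r₃, rfl⟩ := h2
  have hcop₃ : IsCoprime r₃ (e ^ 2) := hcop₂.of_mul_left_right
  have hr₃ : 0 < r₃ := by linarith
  obtain ⟨R₃, h₃⟩ := chain_step (t := r₃) (s := e ^ 2) (c := 3) (k := 9) (T := R₂)
    (by rw [← h₂]; ring)
  by_cases h3 : (3 : ℤ) ∣ r₃
  swap
  · exact (chain_contra (t := r₃) (e := e) (c := 1) (k := 9) (T := R₃) h3 he
      (by rw [← h₃]; ring)).elim
  obtain ⟨r₄, rfl⟩ := h3
  have hcop₄ : IsCoprime r₄ (e ^ 2) := hcop₃.of_mul_left_right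
  have hr₄ : 0 < r₄ := by linarith
  obtain ⟨R₄, h₄⟩ := chain_step (t := r₄) (s := e ^ 2) (c := 1) (k := 27) (T := R₃)
    (by rw [← h₃]; ring)
  have hc : IsCoprime r₄ ((3 * 27 * r₄ - e ^ 2) * (r₄ - 1 * e ^ 2)) :=
    isCoprime_aux hcop₄ isCoprime_one_right
  obtain ⟨a, ha⟩ := sq_of_pos_isCoprime hc h₄ hr₄
  exact ⟨9 * a, by rw [ha]; ring⟩

/-- nontrivial coprime solutions of `V² = (m² - n²)(m² - 81 n²)`. -/
def Good (m n : ℕ) : Prop :=
  0 < m ∧ 0 < n ∧ Nat.Coprime m n ∧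
    ∃ V : ℤ, V ≠ 0 ∧ V ^ 2 = ((m : ℤ) ^ 2 - (n : ℤ) ^ 2) * ((m : ℤ) ^ 2 - 81 * (n : ℤ) ^ 2)

lemma good_of_point {x y : ℚ} (hy : y ≠ 0) (h : y ^ 2 = x * (x - 1) * (x - 81)) :
    ∃ m n : ℕ, Good m n ∧ x = ((m : ℚ) / n) ^ 2 := by
  obtain ⟨r, hr⟩ : ∃ r : ℤ, r = x.num := ⟨_, rfl⟩
  obtain ⟨s, hs⟩ : ∃ s : ℤ, s = (x.den : ℤ) := ⟨_, rfl⟩
  have hs0 : 0 < s := by rw [hs]; exact_mod_cast x.den_pos
  have hsQ : (s : ℚ) ≠ 0 := by exact_mod_cast hs0.ne'
  have hxs : (r : ℚ) = x * s := by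
    rw [hr, hs]; push_cast; exact (Rat.mul_den_eq_num x).symm
  have hcop : IsCoprime r s := by
    rw [hr, hs, Int.isCoprime_iff_gcd_eq_one, Int.gcd_eq_natAbs, Int.natAbs_natCast]
    exact x.reduced
  have hM : IsSquare (((s * (r * ((r - s) * (r - 81 * s))) : ℤ)) : ℚ) := by
    refine ⟨y * s ^ 2, ?_⟩
    push_cast
    rw [hxs]
    linear_combination (-(s : ℚ) ^ 4) * h
  obtain ⟨w, hw⟩ := Rat.isSquare_intCast_iff.mp hM
  have hw' : s * (r * ((r - s) * (r - 81 * s))) = w ^ 2 := by rw [hw]; ring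
  have hw0 : w ≠ 0 := by
    rintro rfl
    have h0 : ((s * (r * ((r - s) * (r - 81 * s))) : ℤ) : ℚ) = 0 := by rw [hw]; simp
    push_cast at h0
    rw [hxs] at h0
    have h1 : (s : ℚ) ^ 4 * y ^ 2 = 0 := by rw [h]; linear_combination h0
    have := pow_ne_zero 4 hsQ
    have h2 := pow_ne_zero 2 hy
    exact (mul_ne_zero this h2) h1
  have hcs : IsCoprime s (r * ((r - s) * (r - 81 * s))) := by
    have h1 : IsCoprime s r := hcop.symm
    refine h1.mul_right (IsCoprime.mul_right ?_ ?_)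
    · have := h1.add_mul_left_right (-1)
      have e : r - s = r + s * (-1) := by ring
      rw [e]; exact this
    · have := h1.add_mul_left_right (-81)
      have e : r - 81 * s = r + s * (-81) := by ring
      rw [e]; exact this
  obtain ⟨e, he⟩ := sq_of_pos_isCoprime hcs hw' hs0
  have hRpos : 0 < r * ((r - s) * (r - 81 * s)) := by
    have : 0 < w ^ 2 := by positivity
    rw [← hw'] at this
    exact (pos_iff_pos_of_mul_pos this).mp hs0
  obtain ⟨R, hR⟩ := sq_of_pos_isCoprime hcs.symm (by rw [← hw']; ring) hRpos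
  have hr0 : 0 < r := by
    by_contra hneg
    push Not at hneg
    have h1 : r - s < 0 := by linarith
    have h2 : r - 81 * s < 0 := by linarith
    have h3 : 0 < (r - s) * (r - 81 * s) := mul_pos_of_neg_of_neg h1 h2
    have : r * ((r - s) * (r - 81 * s)) ≤ 0 := mul_nonpos_of_nonpos_of_nonneg hneg h3.le
    linarith
  subst he
  obtain ⟨a, ha⟩ := num_square hcop hr0 hR
  subst ha
  have ha0 : a ≠ 0 := by
    rintro rfl
    simp at hr0
  have he0 : e ≠ 0 := by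
    rintro rfl
    simp at hs0
  have hdvd : a ^ 2 ∣ R ^ 2 := ⟨_, hR.symm⟩
  obtain ⟨V, rfl⟩ := (Int.pow_dvd_pow_iff two_ne_zero).mp hdvd
  have hV : V ^ 2 = (a ^ 2 - e ^ 2) * (a ^ 2 - 81 * e ^ 2) := by
    apply mul_left_cancel₀ (pow_ne_zero 2 ha0)
    linear_combination -hR
  have hV0 : V ≠ 0 := by
    rintro rfl
    rw [hR] at hRpos
    simp at hRpos
  refine ⟨a.natAbs, e.natAbs, ⟨Int.natAbs_pos.mpr ha0, Int.natAbs_pos.mpr he0, ?_, V, hV0, ?_⟩, ?_⟩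
  · have : IsCoprime a e := (IsCoprime.pow_iff two_pos two_pos).mp hcop
    rw [Int.isCoprime_iff_gcd_eq_one, Int.gcd_eq_natAbs] at this
    exact this
  · rw [Int.natCast_natAbs, Int.natCast_natAbs, sq_abs, sq_abs]
    exact hV
  · have h1 : ((a.natAbs : ℕ) : ℚ) ^ 2 = (a : ℚ) ^ 2 := by
      rw [Nat.cast_natAbs, Int.cast_abs, sq_abs]
    have h2 : ((e.natAbs : ℕ) : ℚ) ^ 2 = (e : ℚ) ^ 2 := by
      rw [Nat.cast_natAbs, Int.cast_abs, sq_abs]
    rw [div_pow, h1, h2]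
    push_cast at hxs hsQ
    field_simp
    linear_combination -hxs

/-- second part of the `2`-descent. -/
lemma good_class {m n : ℕ} (h : Good m n) :
    ∃ (δ : ℤ) (c₁ c₂ : ℕ), (δ = 1 ∨ δ = -1 ∨ δ = 5 ∨ δ = -5) ∧ 0 < c₁ ∧ 0 < c₂ ∧
      (m : ℤ) ^ 2 - (n : ℤ) ^ 2 = δ * (c₁ : ℤ) ^ 2 ∧
      (m : ℤ) ^ 2 - 81 * (n : ℤ) ^ 2 = δ * (c₂ : ℤ) ^ 2 := by
  obtain ⟨hm, hn, hcop, V, hV0, hV⟩ := h
  obtain ⟨D₁, hD₁⟩ : ∃ D₁ : ℤ, D₁ = (m : ℤ) ^ 2 - (n : ℤ) ^ 2 := ⟨_, rfl⟩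
  obtain ⟨D₂, hD₂⟩ : ∃ D₂ : ℤ, D₂ = (m : ℤ) ^ 2 - 81 * (n : ℤ) ^ 2 := ⟨_, rfl⟩
  rw [← hD₁, ← hD₂] at hV ⊢
  have hD₁0 : D₁ ≠ 0 := by
    rintro rfl
    apply hV0
    simpa using hV
  have hD₂0 : D₂ ≠ 0 := by
    rintro rfl
    apply hV0
    simpa using hV
  have hg0 : 0 < Int.gcd D₁ D₂ := Int.gcd_pos_of_ne_zero_left _ hD₁0
  obtain ⟨A, B, hAB, hA, hB⟩ := Int.exists_gcd_one hg0
  obtain ⟨g, hg⟩ : ∃ g : ℕ, g = Int.gcd D₁ D₂ := ⟨_, rfl⟩
  rw [← hg] at hA hB hg0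
  have hgZ : (g : ℤ) ≠ 0 := by exact_mod_cast hg0.ne'
  have hcopZ : IsCoprime ((m : ℤ) ^ 2) ((n : ℤ) ^ 2) :=
    (Nat.isCoprime_iff_coprime.mpr hcop).pow
  -- `g ∣ 80`
  have hg80 : g ∣ 80 := by
    have h1 : (g : ℤ) ∣ D₁ := ⟨A, by rw [hA]; ring⟩
    have h2 : (g : ℤ) ∣ D₂ := ⟨B, by rw [hB]; ring⟩
    obtain ⟨a, b, hab⟩ := hcopZ
    have h3 : (g : ℤ) ∣ 80 := by
      have : (80 : ℤ) = (81 * a + b) * D₁ - (a + b) * D₂ := by
        rw [hD₁, hD₂]; linear_combination (-80 : ℤ) * hab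
      rw [this]
      exact dvd_sub (Dvd.dvd.mul_left h1 _) (Dvd.dvd.mul_left h2 _)
    exact_mod_cast h3
  -- `A B` is a square
  have hgV : (g : ℤ) ^ 2 ∣ V ^ 2 := ⟨A * B, by rw [hV, hA, hB]; ring⟩
  obtain ⟨V', rfl⟩ := (Int.pow_dvd_pow_iff two_ne_zero).mp hgV
  have hABV : A * B = V' ^ 2 := by
    apply mul_left_cancel₀ (pow_ne_zero 2 hgZ)
    rw [hA, hB] at hV
    linear_combination -hV
  have hV'0 : V' ≠ 0 := by
    rintro rfl
    simp at hV0
  have hABc : IsCoprime A B := Int.isCoprime_iff_gcd_eq_one.mpr hAB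
  -- common sign
  obtain ⟨ε, A₀, B₀, hε, hA₀, hB₀⟩ : ∃ ε A₀ B₀ : ℤ, (ε = 1 ∨ ε = -1) ∧ A = ε * A₀ ^ 2 ∧
      B = ε * B₀ ^ 2 := by
    obtain ⟨A₀, hA₀⟩ := Int.sq_of_isCoprime hABc hABV
    obtain ⟨B₀, hB₀⟩ := Int.sq_of_isCoprime hABc.symm (by rw [mul_comm]; exact hABV)
    have hpos : 0 < A * B := by rw [hABV]; positivity
    rcases hA₀ with hA₀ | hA₀ <;> rcases hB₀ with hB₀ | hB₀
    · exact ⟨1, A₀, B₀, Or.inl rfl, by rw [hA₀]; ring, by rw [hB₀]; ring⟩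
    · exfalso
      rw [hA₀, hB₀] at hpos
      nlinarith [sq_nonneg (A₀ * B₀)]
    · exfalso
      rw [hA₀, hB₀] at hpos
      nlinarith [sq_nonneg (A₀ * B₀)]
    · exact ⟨-1, A₀, B₀, Or.inr rfl, by rw [hA₀]; ring, by rw [hB₀]; ring⟩
  have hA₀0 : A₀ ≠ 0 := by
    rintro rfl
    apply hD₁0
    rw [hA, hA₀]; ring
  have hB₀0 : B₀ ≠ 0 := by
    rintro rfl
    apply hD₂0
    rw [hB, hB₀]; ring
  -- parity
  have hpar : 2 ∣ g → Odd (n : ℤ) ∧ 8 ∣ g := by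
    intro h2
    have h2' : (2 : ℤ) ∣ D₁ := by
      rw [hA]
      exact Dvd.dvd.mul_left (by exact_mod_cast h2) _
    have hmn : Odd (m : ℤ) ∧ Odd (n : ℤ) := by
      rcases Int.even_or_odd (m : ℤ) with hme | hmo <;> rcases Int.even_or_odd (n : ℤ) with hne | hno
      · exfalso
        have h1 : 2 ∣ m := by exact_mod_cast hme.two_dvd
        have h2 : 2 ∣ n := by exact_mod_cast hne.two_dvd
        have := Nat.dvd_gcd h1 h2
        rw [hcop] at this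
        norm_num at this
      · exfalso
        have : Odd D₁ := by
          rw [hD₁]
          exact (hme.pow_of_ne_zero two_ne_zero).sub_odd hno.pow
        exact (Int.not_even_iff_odd.mpr this) (even_iff_two_dvd.mpr h2')
      · exfalso
        have : Odd D₁ := by
          rw [hD₁]
          exact hmo.pow.sub_even (hne.pow_of_ne_zero two_ne_zero)
        exact (Int.not_even_iff_odd.mpr this) (even_iff_two_dvd.mpr h2')
      · exact ⟨hmo, hno⟩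
    refine ⟨hmn.2, ?_⟩
    obtain ⟨i, hi⟩ := Int.eight_dvd_sq_sub_one_of_odd hmn.1
    obtain ⟨j, hj⟩ := Int.eight_dvd_sq_sub_one_of_odd hmn.2
    have h81 : (8 : ℤ) ∣ D₁ := ⟨i - j, by rw [hD₁]; linear_combination hi - hj⟩
    have h82 : (8 : ℤ) ∣ D₂ := ⟨i - 81 * j - 10, by rw [hD₂]; linear_combination hi - 81 * hj⟩
    have := Int.dvd_coe_gcd h81 h82
    rw [← hg] at this
    exact_mod_cast this
  have hdiff : (g : ℤ) * (ε * (A₀ ^ 2 - B₀ ^ 2)) = 80 * (n : ℤ) ^ 2 := by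
    have : D₁ - D₂ = 80 * (n : ℤ) ^ 2 := by rw [hD₁, hD₂]; ring
    rw [← this, hA, hB, hA₀, hB₀]; ring
  have hnat : ∀ t : ℤ, ((t.natAbs : ℕ) : ℤ) ^ 2 = t ^ 2 := fun t => by
    rw [Int.natCast_natAbs, sq_abs]
  have hdiv : g ∈ Nat.divisors 80 := Nat.mem_divisors.mpr ⟨hg80, by norm_num⟩
  have hlist : Nat.divisors 80 = {1, 2, 4, 5, 8, 10, 16, 20, 40, 80} := by decide
  rw [hlist] at hdiv
  simp only [Finset.mem_insert, Finset.mem_singleton] at hdiv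
  rcases hdiv with rfl | rfl | rfl | rfl | rfl | rfl | rfl | rfl | rfl | rfl
  · -- g = 1
    refine ⟨ε, A₀.natAbs, B₀.natAbs, ?_, Int.natAbs_pos.mpr hA₀0, Int.natAbs_pos.mpr hB₀0, ?_, ?_⟩
    · rcases hε with rfl | rfl <;> simp
    · rw [hnat, hA, hA₀]; ring
    · rw [hnat, hB, hB₀]; ring
  · exact absurd (hpar (by norm_num)).2 (by norm_num)
  · exact absurd (hpar (by norm_num)).2 (by norm_num)
  · -- g = 5
    refine ⟨5 * ε, A₀.natAbs, B₀.natAbs, ?_, Int.natAbs_pos.mpr hA₀0, Int.natAbs_pos.mpr hB₀0,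
      ?_, ?_⟩
    · rcases hε with rfl | rfl <;> simp
    · rw [hnat, hA, hA₀]; push_cast; ring
    · rw [hnat, hB, hB₀]; push_cast; ring
  · -- g = 8
    exfalso
    have hodd := (hpar (by norm_num)).1
    push_cast at hdiff
    rcases hε with rfl | rfl
    · exact diff_sq_mod8 (a := A₀) (b := B₀) (k := 10) hodd (by norm_num) (by linarith)
    · exact diff_sq_mod8 (a := B₀) (b := A₀) (k := 10) hodd (by norm_num) (by linarith)
  · exact absurd (hpar (by norm_num)).2 (by norm_num)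
  · -- g = 16
    refine ⟨ε, (4 * A₀).natAbs, (4 * B₀).natAbs, ?_, Int.natAbs_pos.mpr (by simpa using hA₀0),
      Int.natAbs_pos.mpr (by simpa using hB₀0), ?_, ?_⟩
    · rcases hε with rfl | rfl <;> simp
    · rw [hnat, hA, hA₀]; push_cast; ring
    · rw [hnat, hB, hB₀]; push_cast; ring
  · exact absurd (hpar (by norm_num)).2 (by norm_num)
  · -- g = 40
    exfalso
    have hodd := (hpar (by norm_num)).1
    push_cast at hdiff
    rcases hε with rfl | rfl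
    · exact diff_sq_mod8 (a := A₀) (b := B₀) (k := 2) hodd (by norm_num) (by linarith)
    · exact diff_sq_mod8 (a := B₀) (b := A₀) (k := 2) hodd (by norm_num) (by linarith)
  · -- g = 80
    refine ⟨5 * ε, (4 * A₀).natAbs, (4 * B₀).natAbs, ?_, Int.natAbs_pos.mpr (by simpa using hA₀0),
      Int.natAbs_pos.mpr (by simpa using hB₀0), ?_, ?_⟩
    · rcases hε with rfl | rfl <;> simp
    · rw [hnat, hA, hA₀]; push_cast; ring
    · rw [hnat, hB, hB₀]; push_cast; ring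

/-- halving a point all of whose `x - eᵢ` are squares. -/
lemma halve {m₁ n₁ α₁ β₁ : ℕ} (hm : 0 < m₁) (hn : 0 < n₁) (hα : 0 < α₁) (hβ : 0 < β₁)
    (h1 : m₁ ^ 2 = n₁ ^ 2 + α₁ ^ 2) (h2 : m₁ ^ 2 = 81 * n₁ ^ 2 + β₁ ^ 2) :
    ∃ p q : ℕ, Good p q ∧ p ^ 2 < 2 * m₁ ∧ q ^ 2 < 2 * m₁ := by
  have hαm : α₁ < m₁ := by
    apply lt_of_pow_lt_pow_left₀ 2 (Nat.zero_le _)
    have : 0 < n₁ ^ 2 := by positivity
    omega
  have hβm : β₁ < m₁ := by
    apply lt_of_pow_lt_pow_left₀ 2 (Nat.zero_le _)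
    have : 0 < n₁ ^ 2 := by positivity
    omega
  obtain ⟨d, hd⟩ : ∃ d, m₁ = α₁ + d := ⟨m₁ - α₁, by omega⟩
  have hd0 : 0 < d := by omega
  have h1Q : (m₁ : ℚ) ^ 2 = (n₁ : ℚ) ^ 2 + (α₁ : ℚ) ^ 2 := by exact_mod_cast h1
  have h2Q : (m₁ : ℚ) ^ 2 = 81 * (n₁ : ℚ) ^ 2 + (β₁ : ℚ) ^ 2 := by exact_mod_cast h2
  have hmQ : (0 : ℚ) < m₁ := by exact_mod_cast hm
  have hnQ : (0 : ℚ) < n₁ := by exact_mod_cast hn
  have hαQ : (0 : ℚ) < α₁ := by exact_mod_cast hα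
  have hβQ : (0 : ℚ) < β₁ := by exact_mod_cast hβ
  have hdQ : (m₁ : ℚ) = α₁ + d := by exact_mod_cast hd
  obtain ⟨x, hx⟩ : ∃ x : ℚ, x = ((m₁ : ℚ) + α₁) * (m₁ + β₁) / (n₁ : ℚ) ^ 2 := ⟨_, rfl⟩
  obtain ⟨y, hy⟩ : ∃ y : ℚ, y = ((m₁ : ℚ) + α₁) * (m₁ + β₁) * (α₁ + β₁) / (n₁ : ℚ) ^ 3 :=
    ⟨_, rfl⟩
  have e1 : x - 1 = ((m₁ : ℚ) + α₁) * (α₁ + β₁) / (n₁ : ℚ) ^ 2 := by
    rw [hx]; field_simp; linear_combination h1Q
  have e2 : x - 81 = ((m₁ : ℚ) + β₁) * (α₁ + β₁) / (n₁ : ℚ) ^ 2 := by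
    rw [hx]; field_simp; linear_combination h2Q
  have hy0 : y ≠ 0 := by rw [hy]; positivity
  have hcurve : y ^ 2 = x * (x - 1) * (x - 81) := by
    rw [e1, e2, hx, hy]; field_simp
  obtain ⟨p, q, hgood, hxpq⟩ := good_of_point hy0 hcurve
  refine ⟨p, q, hgood, ?_, ?_⟩
  all_goals
    obtain ⟨hp, hq, hcop, -⟩ := hgood
    have hqQ : (0 : ℚ) < q := by exact_mod_cast hq
    have hkey : (p : ℚ) ^ 2 * d = (q : ℚ) ^ 2 * (m₁ + β₁) := by
      have h3 : x * d = m₁ + β₁ := by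
        have hd' : (d : ℚ) = m₁ - α₁ := by linarith
        have hn2 : (n₁ : ℚ) ^ 2 = (m₁ - α₁) * (m₁ + α₁) := by linear_combination -h1Q
        have hpos : (0 : ℚ) < m₁ - α₁ := by
          rw [← hd']; exact_mod_cast hd0
        rw [hx, hd', hn2]
        field_simp
      rw [hxpq] at h3
      rw [← h3]; field_simp
    have hkeyN : p ^ 2 * d = q ^ 2 * (m₁ + β₁) := by exact_mod_cast hkey
    have hcop2 : Nat.Coprime (p ^ 2) (q ^ 2) := Nat.Coprime.pow 2 2 hcop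
  · have : p ^ 2 ∣ m₁ + β₁ := hcop2.dvd_of_dvd_mul_left ⟨d, hkeyN.symm⟩
    have := Nat.le_of_dvd (by omega) this
    omega
  · have : q ^ 2 ∣ d := hcop2.symm.dvd_of_dvd_mul_left ⟨m₁ + β₁, hkeyN⟩
    have := Nat.le_of_dvd hd0 this
    omega

lemma lt_of_sq_lt_mul {p k M : ℕ} (hp : p ^ 2 < k * M) (hM : k ≤ M) : p < M := by
  by_contra hcon
  push Not at hcon
  have h1 : M * M ≤ p * p := Nat.mul_le_mul hcon hcon
  have h2 : k * M ≤ M * M := Nat.mul_le_mul_right M hM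
  have h3 : p ^ 2 = p * p := by ring
  omega

/-- The infinite descent. -/
theorem not_good : ∀ (N m n : ℕ), max m n = N → ¬ Good m n := by
  intro N
  induction N using Nat.strong_induction_on with
  | _ N ih =>
  intro m n hN h
  obtain ⟨δ, c₁, c₂, hδ, hc₁, hc₂, e1, e2⟩ := good_class h
  obtain ⟨hm, hn, hcop, -⟩ := h
  rcases hδ with rfl | rfl | rfl | rfl
  · -- δ = 1
    have f1 : m ^ 2 = n ^ 2 + c₁ ^ 2 := by
      have : (m : ℤ) ^ 2 = (n : ℤ) ^ 2 + (c₁ : ℤ) ^ 2 := by linarith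
      exact_mod_cast this
    have f2 : m ^ 2 = 81 * n ^ 2 + c₂ ^ 2 := by
      have : (m : ℤ) ^ 2 = 81 * (n : ℤ) ^ 2 + (c₂ : ℤ) ^ 2 := by linarith
      exact_mod_cast this
    obtain ⟨p, q, hg, hp, hq⟩ := halve hm hn hc₁ hc₂ f1 f2
    have hm2 : 2 ≤ m := by
      by_contra hcon
      have : m = 1 := by omega
      subst this
      have : 0 < n ^ 2 := by positivity
      omega
    have hpm := lt_of_sq_lt_mul hp hm2
    have hqm := lt_of_sq_lt_mul hq hm2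
    exact ih (max p q) (by rw [← hN]; exact lt_max_of_lt_left (max_lt hpm hqm)) p q rfl hg
  · -- δ = -1
    have f1 : n ^ 2 = m ^ 2 + c₁ ^ 2 := by
      have : (n : ℤ) ^ 2 = (m : ℤ) ^ 2 + (c₁ : ℤ) ^ 2 := by linarith
      exact_mod_cast this
    have f2 : 81 * n ^ 2 = m ^ 2 + c₂ ^ 2 := by
      have : 81 * (n : ℤ) ^ 2 = (m : ℤ) ^ 2 + (c₂ : ℤ) ^ 2 := by linarith
      exact_mod_cast this
    by_cases hn18 : 18 ≤ n
    · obtain ⟨p, q, hg, hp, hq⟩ := halve (m₁ := 9 * n) (n₁ := m) (α₁ := c₂) (β₁ := 9 * c₁)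
        (by omega) hm hc₂ (by omega) (by rw [← f2]; ring)
        (by
          have : (9 * n) ^ 2 = 81 * n ^ 2 := by ring
          rw [this, f1]; ring)
      have hpm : p < n := lt_of_sq_lt_mul (k := 18) (by omega) hn18
      have hqm : q < n := lt_of_sq_lt_mul (k := 18) (by omega) hn18
      exact ih (max p q) (by rw [← hN]; exact lt_max_of_lt_right (max_lt hpm hqm)) p q rfl hg
    · exfalso
      have hmn : m < n := by
        apply lt_of_pow_lt_pow_left₀ 2 (Nat.zero_le _)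
        have : 0 < c₁ ^ 2 := by positivity
        omega
      have hs1 : IsSquare (n ^ 2 - m ^ 2) := ⟨c₁, by rw [f1]; simp; ring⟩
      have hs2 : IsSquare (81 * n ^ 2 - m ^ 2) := ⟨c₂, by rw [f2]; simp; ring⟩
      clear f1 f2 e1 e2 ih hN hcop
      have hn17 : n ≤ 17 := by omega
      interval_cases n <;> interval_cases m <;>
        first
          | (norm_num at hs1; done)
          | (norm_num at hs2; done)
  · -- δ = 5
    have f1 : m ^ 2 = n ^ 2 + 5 * c₁ ^ 2 := by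
      have : (m : ℤ) ^ 2 = (n : ℤ) ^ 2 + 5 * (c₁ : ℤ) ^ 2 := by linarith
      exact_mod_cast this
    have f2 : m ^ 2 = 81 * n ^ 2 + 5 * c₂ ^ 2 := by
      have : (m : ℤ) ^ 2 = 81 * (n : ℤ) ^ 2 + 5 * (c₂ : ℤ) ^ 2 := by linarith
      exact_mod_cast this
    obtain ⟨p, q, hg, hp, hq⟩ := halve (m₁ := 9 * c₁) (n₁ := c₂) (α₁ := 4 * m) (β₁ := 36 * n)
      (by omega) hc₂ (by omega) (by omega)
      (by
        have h1 : (9 * c₁) ^ 2 = 81 * c₁ ^ 2 := by ring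
        have h2 : (4 * m) ^ 2 = 16 * m ^ 2 := by ring
        omega)
      (by
        have h1 : (9 * c₁) ^ 2 = 81 * c₁ ^ 2 := by ring
        have h2 : (36 * n) ^ 2 = 1296 * n ^ 2 := by ring
        omega)
    have hm9 : 9 ≤ m := by
      by_contra hcon
      have h1 : m ^ 2 ≤ 8 ^ 2 := Nat.pow_le_pow_left (by omega) 2
      have h2 : 0 < n ^ 2 := by positivity
      omega
    have hc₁m : 2 * c₁ < m := by
      apply lt_of_pow_lt_pow_left₀ 2 (Nat.zero_le _)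
      have h1 : (2 * c₁) ^ 2 = 4 * c₁ ^ 2 := by ring
      have h2 : 0 < n ^ 2 := by positivity
      have h3 : 0 < c₁ ^ 2 := by positivity
      omega
    have hpm : p < m := lt_of_sq_lt_mul (k := 9) (by omega) hm9
    have hqm : q < m := lt_of_sq_lt_mul (k := 9) (by omega) hm9
    exact ih (max p q) (by rw [← hN]; exact lt_max_of_lt_left (max_lt hpm hqm)) p q rfl hg
  · -- δ = -5
    have f1 : n ^ 2 = m ^ 2 + 5 * c₁ ^ 2 := by
      have : (n : ℤ) ^ 2 = (m : ℤ) ^ 2 + 5 * (c₁ : ℤ) ^ 2 := by linarith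
      exact_mod_cast this
    have f2 : 81 * n ^ 2 = m ^ 2 + 5 * c₂ ^ 2 := by
      have : 81 * (n : ℤ) ^ 2 = (m : ℤ) ^ 2 + 5 * (c₂ : ℤ) ^ 2 := by linarith
      exact_mod_cast this
    by_cases hn10 : 10 ≤ n
    · obtain ⟨p, q, hg, hp, hq⟩ := halve (m₁ := c₂) (n₁ := c₁) (α₁ := 4 * n) (β₁ := 4 * m)
        hc₂ hc₁ (by omega) (by omega)
        (by
          have h2 : (4 * n) ^ 2 = 16 * n ^ 2 := by ring
          omega)
        (by
          have h2 : (4 * m) ^ 2 = 16 * m ^ 2 := by ring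
          omega)
      have hc₂n : c₂ < 5 * n := by
        apply lt_of_pow_lt_pow_left₀ 2 (Nat.zero_le _)
        have h1 : (5 * n) ^ 2 = 25 * n ^ 2 := by ring
        have h2 : 0 < n ^ 2 := by positivity
        omega
      have hpm : p < n := lt_of_sq_lt_mul (k := 10) (by omega) hn10
      have hqm : q < n := lt_of_sq_lt_mul (k := 10) (by omega) hn10
      exact ih (max p q) (by rw [← hN]; exact lt_max_of_lt_right (max_lt hpm hqm)) p q rfl hg
    · exfalso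
      have hmn : m < n := by
        apply lt_of_pow_lt_pow_left₀ 2 (Nat.zero_le _)
        have : 0 < c₁ ^ 2 := by positivity
        omega
      have hc₁n : c₁ < n := by
        apply lt_of_pow_lt_pow_left₀ 2 (Nat.zero_le _)
        have : 0 < m ^ 2 := by positivity
        have : 0 < c₁ ^ 2 := by positivity
        omega
      have hc₂n : c₂ < 5 * n := by
        apply lt_of_pow_lt_pow_left₀ 2 (Nat.zero_le _)
        have h1 : (5 * n) ^ 2 = 25 * n ^ 2 := by ring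
        have h2 : 0 < n ^ 2 := by positivity
        omega
      clear e1 e2 ih hN hcop
      have hn9 : n ≤ 9 := by omega
      interval_cases n <;> interval_cases m <;> interval_cases c₁ <;> first | omega | skip
      all_goals (interval_cases c₂ <;> omega)

/-- The curve `y² = x (x - 1) (x - 81)` has only the obvious rational points. -/
theorem rational_points_15a2 (x y : ℚ) (h : y ^ 2 = x * (x - 1) * (x - 81)) : y = 0 := by
  by_contra hy
  obtain ⟨m, n, hg, -⟩ := good_of_point hy h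
  exact not_good _ m n rfl hg

theorem rational_points_X0_15 (X y : ℚ) (h : y ^ 2 = X * (X - 9) * (X - 25)) :
    X = 0 ∨ X = 9 ∨ X = 25 ∨ X = 5 ∨ X = 45 := by
  by_cases h25 : X = 25
  · right; right; left; exact h25
  have hx : X - 25 ≠ 0 := sub_ne_zero.mpr h25
  have key := rational_points_15a2 ((y / (X - 25)) ^ 2)
    (y * (400 - (X - 25) ^ 2) / (X - 25) ^ 2) (by
      have e1 : (y / (X - 25)) ^ 2 = X * (X - 9) / (X - 25) := by
        rw [div_pow, h]; field_simp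
      rw [e1, div_pow, mul_pow, h]
      field_simp
      ring)
  rw [div_eq_zero_iff] at key
  rcases key with key | key
  · rcases mul_eq_zero.mp key with hy | hy
    · rw [hy] at h
      have h0 : X * (X - 9) * (X - 25) = 0 := by rw [← h]; ring
      rcases mul_eq_zero.mp h0 with h1 | h1
      · rcases mul_eq_zero.mp h1 with h2 | h2
        · left; exact h2
        · right; left; linarith
      · exact absurd h1 hx
    · have : (X - 45) * (X - 5) = 0 := by linear_combination -hy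
      rcases mul_eq_zero.mp this with h1 | h1
      · right; right; right; right; linarith
      · right; right; right; left; linarith
  · exact absurd (pow_eq_zero_iff two_ne_zero |>.mp key) hx

end Fermat.Agent.S51
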