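import Fermat.Agent.S51.Algebra
import Fermat.Agent.S51.Descent

set_option autoImplicit false
set_option linter.unusedSectionVars false
set_option linter.unusedVariables false

namespace Fermat.Agent.S51

section Endgame

variable {K : Type*} [Field K] [CharZero K]

theorem five_contra {c₄ Δ A B : ℤ} (h5 : (5 : ℤ) ∣ Δ → ¬ (5 : ℤ) ∣ c₄)
    (h : A * c₄ ^ 3 = B * Δ) (hA : ¬ (5 : ℤ) ∣ A) (hB5 : (5 : ℤ) ∣ B) (hB : ¬ (125 : ℤ) ∣ B) :
    False := by
  have p5 : Prime (5 : ℤ) := by norm_num
  have h1 : (5 : ℤ) ∣ A * c₄ ^ 3 := h ▸ Dvd.dvd.mul_right hB5 Δ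
  have h2 : (5 : ℤ) ∣ c₄ := p5.dvd_of_dvd_pow ((p5.dvd_or_dvd h1).resolve_left hA)
  apply h5 _ h2
  obtain ⟨k, rfl⟩ := h2
  by_contra hΔ
  apply hB
  have h3 : (125 : ℤ) ∣ B * Δ := ⟨A * k ^ 3, by rw [← h]; ring⟩
  have hcop : IsCoprime (125 : ℤ) Δ := by
    have : IsCoprime (5 : ℤ) Δ := (Prime.coprime_iff_not_dvd p5).mpr hΔ
    have := this.pow_left (m := 3)
    norm_num at this
    exact this
  exact hcop.dvd_of_dvd_mul_right h3

theorem endgame (c₄ Δ : ℤ) (hΔ : Δ ≠ 0) (h5 : (5 : ℤ) ∣ Δ → ¬ (5 : ℤ) ∣ c₄)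
    {b z lam : K} (hb : b ≠ 0) (hz0 : z ≠ 0) (hz1 : z ≠ 1)
    (hrel : z ^ 3 * b ^ 2 + 3 * z ^ 2 * (z - 1) ^ 2 * b + (z - 1) ^ 3 = 0)
    (hc₄ : (c₄ : K) = lam ^ 2 * (b ^ 4 - 12 * b ^ 3 + 14 * b ^ 2 + 12 * b + 1))
    (hΔ' : (Δ : K) = lam ^ 6 * (b ^ 5 * (b ^ 2 - 11 * b - 1)))
    (Xq yq : ℚ) (hX : Xf z = (Xq : K)) (hY : Yf b z = (yq : K)) : False := by
  have hcurve : yq ^ 2 = Xq * (Xq - 9) * (Xq - 25) := by
    have := Yf_sq hz1 hrel
    rw [hX, hY] at this
    exact_mod_cast this
  have htau := tau_formula hb hz0 hz1 hrel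
  rw [hX, hY] at htau
  obtain ⟨τ, hτ⟩ : ∃ τ : K, τ = b - 1 / b - 11 := ⟨_, rfl⟩
  have hbτ : b - 1 / b = τ + 11 := by rw [hτ]; ring
  rw [hbτ] at htau
  have hj : (c₄ : K) ^ 3 * τ = (Δ : K) * (τ ^ 2 + 10 * τ + 5) ^ 3 := by
    rw [hc₄, hΔ', hτ]; field_simp; ring
  have hτ0 : τ ≠ 0 := by
    intro h0
    apply hΔ
    have : (Δ : K) = 0 := by
      rw [hΔ']
      have : b ^ 2 - 11 * b - 1 = 0 := by
        have h1 : b * τ = b ^ 2 - 11 * b - 1 := by rw [hτ]; field_simp; ring
        rw [← h1, h0, mul_zero]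
      rw [this]; ring
    exact_mod_cast this
  rcases rational_points_X0_15 Xq yq hcurve with h | h | h | h | h
  · -- X = 0, τ = -25/2
    subst h
    have hy : yq = 0 := by
      have : yq ^ 2 = 0 := by rw [hcurve]; ring
      exact pow_eq_zero_iff (two_ne_zero) |>.mp this
    subst hy
    have : τ = -25 / 2 := by
      push_cast at htau
      linear_combination 8 * htau
    rw [this] at hj
    have hj' : (-32 : ℤ) * c₄ ^ 3 = (5 * 29 ^ 3 : ℤ) * Δ := by
      have : (-32 : K) * (c₄ : K) ^ 3 = (5 * 29 ^ 3 : K) * (Δ : K) := by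
        linear_combination (64 / 25 : K) * hj
      exact_mod_cast this
    exact five_contra h5 hj' (by norm_num) (by norm_num) (by norm_num)
  · -- X = 9 : z (z - 1) = 0
    have : Xf z = 9 := by rw [hX, h]; norm_num
    unfold Xf at this
    have h2 : z * (z - 1) = 0 := by linear_combination (1 / 36 : K) * this
    rcases mul_eq_zero.mp h2 with h3 | h3
    · exact hz0 h3
    · exact hz1 (sub_eq_zero.mp h3)
  · -- X = 25, τ = -25/8
    subst h
    have hy : yq = 0 := by
      have : yq ^ 2 = 0 := by rw [hcurve]; ring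
      exact pow_eq_zero_iff (two_ne_zero) |>.mp this
    subst hy
    have : τ = -25 / 8 := by
      push_cast at htau
      linear_combination (81 / 32 : K) * htau
    rw [this] at hj
    have hj' : (2 ^ 15 : ℤ) * c₄ ^ 3 = (5 * 211 ^ 3 : ℤ) * Δ := by
      have : (2 ^ 15 : K) * (c₄ : K) ^ 3 = (5 * 211 ^ 3 : K) * (Δ : K) := by
        linear_combination (-(2 ^ 18) / 25 : K) * hj
      exact_mod_cast this
    exact five_contra h5 hj' (by norm_num) (by norm_num) (by norm_num)
  · -- X = 5, y = ± 20, τ = 0 or -40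
    subst h
    have hy : (yq - 20) * (yq + 20) = 0 := by linear_combination hcurve
    rcases mul_eq_zero.mp hy with h | h
    · have hy : yq = 20 := by linarith
      subst hy
      apply hτ0
      push_cast at htau
      linear_combination (81 / 2 : K) * htau
    · have hy : yq = -20 := by linarith
      subst hy
      have : τ = -40 := by
        push_cast at htau
        linear_combination (81 / 2 : K) * htau
      rw [this] at hj
      have hj' : (-8 : ℤ) * c₄ ^ 3 = (25 * 241 ^ 3 : ℤ) * Δ := by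
        have : (-8 : K) * (c₄ : K) ^ 3 = (25 * 241 ^ 3 : K) * (Δ : K) := by
          linear_combination (1 / 5 : K) * hj
        exact_mod_cast this
      exact five_contra h5 hj' (by norm_num) (by norm_num) (by norm_num)
  · -- X = 45, y = ± 180, τ = 0 or -10
    subst h
    have hy : (yq - 180) * (yq + 180) = 0 := by linear_combination hcurve
    rcases mul_eq_zero.mp hy with h | h
    · have hy : yq = 180 := by linarith
      subst hy
      apply hτ0
      push_cast at htau
      linear_combination (1 / 2 : K) * htau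
    · have hy : yq = -180 := by linarith
      subst hy
      have : τ = -10 := by
        push_cast at htau
        linear_combination (1 / 2 : K) * htau
      rw [this] at hj
      have hj' : (-2 : ℤ) * c₄ ^ 3 = (25 : ℤ) * Δ := by
        have : (-2 : K) * (c₄ : K) ^ 3 = (25 : K) * (Δ : K) := by
          linear_combination (1 / 5 : K) * hj
        exact_mod_cast this
      exact five_contra h5 hj' (by norm_num) (by norm_num) (by norm_num)

end Endgame

end Fermat.Agent.S51
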