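import Fermat.Agent.S51.Galois
import Fermat.Agent.S51.Endgame
import Fermat.Prelude.Def_FLTPrelim_Modularity

set_option autoImplicit false
set_option linter.unusedSectionVars false
set_option linter.unusedVariables false

namespace Fermat.Agent.S51

open WeierstrassCurve WeierstrassCurve.Affine WeierstrassCurve.Affine.Point Polynomial

section Main

variable {K : Type*} [Field K]

lemma map_Xf (σ : K →+* K) (z : K) : σ (Xf z) = Xf (σ z) := by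
  simp [Xf, map_ofNat]

lemma map_Yf (σ : K →+* K) (b z : K) : σ (Yf b z) = Yf (σ b) (σ z) := by
  simp [Yf, map_ofNat]

lemma map_F2 (σ : K →+* K) (b₂ b₄ b₆ x : K) :
    σ (F2 b₂ b₄ b₆ x) = F2 (σ b₂) (σ b₄) (σ b₆) (σ x) := by
  simp [F2, map_ofNat]

variable [DecidableEq K] [Algebra ℚ K] [CharZero K] [IsGalois ℚ K]

/-- The two mod `3` and mod `5` representations cannot both have a stable line. -/
theorem no_two_lines (W : WeierstrassCurve ℤ) (hΔ : W.Δ ≠ 0)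
    (h5 : (5 : ℤ) ∣ W.Δ → ¬ (5 : ℤ) ∣ W.c₄)
    (N₃ : Submodule (ZMod 3) (Submodule.torsionBy ℤ
      ((W.map (Int.castRingHom ℚ))⁄K).Point (3 : ℕ)))
    (hN₃ : IsGaloisStable ℚ N₃) (h₃0 : N₃ ≠ ⊥) (h₃1 : N₃ ≠ ⊤)
    (N₅ : Submodule (ZMod 5) (Submodule.torsionBy ℤ
      ((W.map (Int.castRingHom ℚ))⁄K).Point (5 : ℕ)))
    (hN₅ : IsGaloisStable ℚ N₅) (h₅0 : N₅ ≠ ⊥) (h₅1 : N₅ ≠ ⊤) : False := by
  obtain ⟨x₀, y₀, hT, h3T⟩ := stable_three _ N₃ hN₃ h₃0 h₃1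
  obtain ⟨u, y, v, y', hP, h2P, h5P, hdbl, ⟨huv, hfu, hfv, hg1, hg2⟩, hσ⟩ :=
    stable_five _ N₅ hN₅ h₅0 h₅1
  obtain ⟨V, hV⟩ : ∃ V : WeierstrassCurve.Affine K, V = (W.map (Int.castRingHom ℚ))⁄K :=
    ⟨_, rfl⟩
  have hp3 := p3_eq_zero_of_three_nsmul hT h3T
  -- the `x`-coordinates are distinct
  obtain ⟨P, hPdef⟩ : ∃ P : ((W.map (Int.castRingHom ℚ))⁄K).Point, P = some u y hP := ⟨_, rfl⟩
  obtain ⟨T, hTdef⟩ : ∃ T : ((W.map (Int.castRingHom ℚ))⁄K).Point, T = some _ y₀ hT := ⟨_, rfl⟩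
  have hP0 : P ≠ 0 := hPdef ▸ some_ne_zero hP
  have hxu : algebraMap ℚ K x₀ ≠ u := by
    intro hx
    have h3P : (3 : ℕ) • P = 0 := by
      rcases (X_eq_iff (h₁ := hT) (h₂ := hP)).mp hx with h | h
      · rw [hPdef, ← h]; exact h3T
      · rw [← hPdef, ← hTdef] at h
        rw [← hTdef, h] at h3T
        simpa using h3T
    apply hP0
    rw [← hPdef] at h5P
    have : P = (2 : ℕ) • (3 : ℕ) • P - (5 : ℕ) • P := by abel
    rw [this, h3P, h5P]; simp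
  have hxv : algebraMap ℚ K x₀ ≠ v := by
    intro hx
    have h3P : (3 : ℕ) • (2 : ℕ) • P = 0 := by
      rcases (X_eq_iff (h₁ := hT) (h₂ := h2P)).mp hx with h | h
      · rw [hPdef, hdbl, ← h]; exact h3T
      · rw [← hdbl, ← hPdef, ← hTdef] at h
        rw [← hTdef, h] at h3T
        simpa using h3T
    apply hP0
    rw [← hPdef] at h5P
    have : P = (3 : ℕ) • (2 : ℕ) • P - (5 : ℕ) • P := by abel
    rw [this, h3P, h5P]; simp
  obtain ⟨b, z, hb0, hz0, hz1, hz, hb, hFv, hrel, hc₄, hΔ'⟩ :=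
    core (WeierstrassCurve.b_relation _) huv hfu hg1 hg2 hp3 hxu hxv
  -- Galois invariance
  have hb₂ : ∀ σ : K ≃ₐ[ℚ] K, σ ((W.map (Int.castRingHom ℚ))⁄K).b₂ =
      ((W.map (Int.castRingHom ℚ))⁄K).b₂ := fun σ => by
    rw [show ((W.map (Int.castRingHom ℚ))⁄K).b₂ = algebraMap ℚ K (W.map (Int.castRingHom ℚ)).b₂ from
      WeierstrassCurve.map_b₂ _ _, AlgEquiv.commutes]
  have hb₄ : ∀ σ : K ≃ₐ[ℚ] K, σ ((W.map (Int.castRingHom ℚ))⁄K).b₄ =
      ((W.map (Int.castRingHom ℚ))⁄K).b₄ := fun σ => by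
    rw [show ((W.map (Int.castRingHom ℚ))⁄K).b₄ = algebraMap ℚ K (W.map (Int.castRingHom ℚ)).b₄ from
      WeierstrassCurve.map_b₄ _ _, AlgEquiv.commutes]
  have hb₆ : ∀ σ : K ≃ₐ[ℚ] K, σ ((W.map (Int.castRingHom ℚ))⁄K).b₆ =
      ((W.map (Int.castRingHom ℚ))⁄K).b₆ := fun σ => by
    rw [show ((W.map (Int.castRingHom ℚ))⁄K).b₆ = algebraMap ℚ K (W.map (Int.castRingHom ℚ)).b₆ from
      WeierstrassCurve.map_b₆ _ _, AlgEquiv.commutes]
  have hvu : v - u ≠ 0 := sub_ne_zero.mpr (Ne.symm huv)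
  have hinv : ∀ σ : K ≃ₐ[ℚ] K, σ (Xf z) = Xf z ∧ σ (Yf b z) = Yf b z := by
    intro σ
    have e1 : σ (Xf z) = Xf (σ z) := map_Xf (σ : K →+* K) z
    have e2 : σ (Yf b z) = Yf (σ b) (σ z) := map_Yf (σ : K →+* K) b z
    have e3 : ∀ x, σ (F2 ((W.map (Int.castRingHom ℚ))⁄K).b₂ ((W.map (Int.castRingHom ℚ))⁄K).b₄
        ((W.map (Int.castRingHom ℚ))⁄K).b₆ x) =
        F2 ((W.map (Int.castRingHom ℚ))⁄K).b₂ ((W.map (Int.castRingHom ℚ))⁄K).b₄
        ((W.map (Int.castRingHom ℚ))⁄K).b₆ (σ x) := by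
      intro x
      have := map_F2 (σ : K →+* K) ((W.map (Int.castRingHom ℚ))⁄K).b₂
        ((W.map (Int.castRingHom ℚ))⁄K).b₄ ((W.map (Int.castRingHom ℚ))⁄K).b₆ x
      simp only [RingHom.coe_coe, hb₂, hb₄, hb₆] at this
      exact this
    rcases hσ σ with ⟨hu, hv⟩ | ⟨hu, hv⟩
    · have hσz : σ z = z := by
        rw [hz, map_div₀, map_sub, map_sub, hu, hv, AlgEquiv.commutes]
      have hσb : σ b = b := by
        rw [hb, map_div₀, map_pow, map_sub, e3, hu, hv]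
      rw [e1, e2, hσz, hσb]
      exact ⟨rfl, rfl⟩
    · have hσz : σ z = 1 - z := by
        rw [hz, map_div₀, map_sub, map_sub, hu, hv, AlgEquiv.commutes]
        have huv' : u - v ≠ 0 := sub_ne_zero.mpr huv
        field_simp
        ring
      have hσb : σ b = -1 / b := by
        conv_lhs => rw [hb, map_div₀, map_pow, map_sub, e3, hu, hv, hFv]
        field_simp
        ring
      rw [e1, e2, hσz, hσb, Xf_swap, Yf_swap hb0 hz0 hz1 hrel]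
      exact ⟨rfl, rfl⟩
  obtain ⟨Xq, hXq⟩ := (InfiniteGalois.mem_range_algebraMap_iff_fixed (k := ℚ) (Xf z)).mpr
    fun σ => (hinv σ).1
  obtain ⟨yq, hyq⟩ := (InfiniteGalois.mem_range_algebraMap_iff_fixed (k := ℚ) (Yf b z)).mpr
    fun σ => (hinv σ).2
  rw [eq_ratCast] at hXq hyq
  refine endgame W.c₄ W.Δ hΔ h5 hb0 hz0 hz1 hrel (lam := (v - u) / b) ?_ ?_ Xq yq hXq.symm hyq.symm
  · rw [← hc₄]
    have : ((W.map (Int.castRingHom ℚ))⁄K).c₄ = (W.c₄ : K) := by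
      rw [show ((W.map (Int.castRingHom ℚ))⁄K).c₄ = algebraMap ℚ K (W.map (Int.castRingHom ℚ)).c₄ from
        WeierstrassCurve.map_c₄ _ _, WeierstrassCurve.map_c₄]
      simp
    rw [← this, WeierstrassCurve.c₄]
  · rw [← hΔ']
    have : ((W.map (Int.castRingHom ℚ))⁄K).Δ = (W.Δ : K) := by
      rw [show ((W.map (Int.castRingHom ℚ))⁄K).Δ = algebraMap ℚ K (W.map (Int.castRingHom ℚ)).Δ from
        WeierstrassCurve.map_Δ _ _, WeierstrassCurve.map_Δ]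
      simp
    rw [← this, WeierstrassCurve.Δ]

/-- If the mod `n` representation is not irreducible although there is nonzero `n`-torsion, there
is a proper nonzero Galois-stable submodule. -/
theorem exists_stable_of_not_irreducible (E : WeierstrassCurve.Affine ℚ) (n : ℕ)
    (hex : ∃ P : (E⁄K).Point, P ≠ 0 ∧ n • P = 0)
    (h : ¬ GaloisRepIsIrreducible (K := K) ℚ E n) :
    ∃ N : Submodule (ZMod n) (Submodule.torsionBy ℤ (E⁄K).Point n),
      IsGaloisStable ℚ N ∧ N ≠ ⊥ ∧ N ≠ ⊤ := by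
  unfold GaloisRepIsIrreducible at h
  have hnt : Nontrivial (Submodule.torsionBy ℤ (E⁄K).Point n) := by
    obtain ⟨P, hP0, hP⟩ := hex
    refine ⟨⟨P, (mem_torsionBy_nat _).mpr hP⟩, 0, ?_⟩
    intro h
    exact hP0 (congrArg Subtype.val h)
  by_contra hcon
  apply h
  refine ⟨hnt, fun N hN => ?_⟩
  by_contra hN'
  push Not at hN'
  exact hcon ⟨N, hN, hN'.1, hN'.2⟩

theorem three_or_five [IsAlgClosed K] (W : WeierstrassCurve ℤ) (hΔ : W.Δ ≠ 0)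
    (h5 : (5 : ℤ) ∣ W.Δ → ¬ (5 : ℤ) ∣ W.c₄) :
    GaloisRepIsIrreducible (K := K) ℚ (W.map (Int.castRingHom ℚ)) 3 ∨
      GaloisRepIsIrreducible (K := K) ℚ (W.map (Int.castRingHom ℚ)) 5 := by
  have hΔK : ((W.map (Int.castRingHom ℚ))⁄K).Δ ≠ 0 := by
    rw [show ((W.map (Int.castRingHom ℚ))⁄K).Δ = algebraMap ℚ K (W.map (Int.castRingHom ℚ)).Δ from
      WeierstrassCurve.map_Δ _ _, WeierstrassCurve.map_Δ]
    simpa using hΔ
  by_contra hcon
  push Not at hcon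
  obtain ⟨N₃, hN₃, h₃0, h₃1⟩ := exists_stable_of_not_irreducible _ 3
    (exists_three_torsion hΔK) hcon.1
  obtain ⟨N₅, hN₅, h₅0, h₅1⟩ := exists_stable_of_not_irreducible _ 5
    (exists_five_torsion hΔK) hcon.2
  exact no_two_lines W hΔ h5 N₃ hN₃ h₃0 h₃1 N₅ hN₅ h₅0 h₅1

end Main

end Fermat.Agent.S51
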