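import Mathlib

set_option autoImplicit false
set_option linter.unusedSectionVars false
set_option linter.unusedVariables false

namespace Fermat.Agent.S51

section Algebra

variable {K : Type*} [Field K]

/-- `ψ₂²`, the 2-division polynomial squared, in terms of the `b`-invariants. -/
def F2 (b₂ b₄ b₆ x : K) : K := 4 * x ^ 3 + b₂ * x ^ 2 + 2 * b₄ * x + b₆

/-- numerator of the `x`-coordinate doubling map. -/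
def G2 (b₄ b₆ b₈ x : K) : K := x ^ 4 - b₄ * x ^ 2 - 2 * b₆ * x - b₈

/-- the 3-division polynomial. -/
def P3 (b₂ b₄ b₆ b₈ x : K) : K := 3 * x ^ 4 + b₂ * x ^ 3 + 3 * b₄ * x ^ 2 + 3 * b₆ * x + b₈

/-- Solving the `5`-cycle relations for the `b`-invariants. -/
theorem solve_b {b₂ b₄ b₆ b₈ u v : K} (hb : 4 * b₈ = b₂ * b₆ - b₄ ^ 2)
    (huv : u ≠ v) (hfu : F2 b₂ b₄ b₆ u ≠ 0)
    (h1 : G2 b₄ b₆ b₈ u = v * F2 b₂ b₄ b₆ u) (h2 : G2 b₄ b₆ b₈ v = u * F2 b₂ b₄ b₆ v) :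
    ∃ w b : K, w ≠ 0 ∧ b ≠ 0 ∧ v = u + w ∧ b = w ^ 3 / F2 b₂ b₄ b₆ u ∧
      b₂ = w * (b ^ 2 - 6 * b + 1) / b - 12 * u ∧
      b₄ = w ^ 2 * (b - 1) / b - u * (w * (b ^ 2 - 6 * b + 1) / b - 12 * u) - 6 * u ^ 2 ∧
      b₆ = w ^ 3 / b - (4 * u ^ 3 + (w * (b ^ 2 - 6 * b + 1) / b - 12 * u) * u ^ 2 +
        2 * (w ^ 2 * (b - 1) / b - u * (w * (b ^ 2 - 6 * b + 1) / b - 12 * u) - 6 * u ^ 2) * u) := by
  have hw : v - u ≠ 0 := sub_ne_zero.mpr (Ne.symm huv)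
  obtain ⟨w, hwdef⟩ : ∃ w, w = v - u := ⟨_, rfl⟩
  rw [← hwdef] at hw
  have hv : v = u + w := by rw [hwdef]; ring
  obtain ⟨β₆, hβ₆⟩ : ∃ β₆, β₆ = F2 b₂ b₄ b₆ u := ⟨_, rfl⟩
  obtain ⟨β₄, hβ₄⟩ : ∃ β₄, β₄ = b₄ + u * b₂ + 6 * u ^ 2 := ⟨_, rfl⟩
  obtain ⟨β₂, hβ₂⟩ : ∃ β₂, β₂ = b₂ + 12 * u := ⟨_, rfl⟩
  have e1 : w * (w ^ 3 - β₄ * w - β₆) = 0 := by
    have : w * (w ^ 3 - β₄ * w - β₆) =
        (G2 b₄ b₆ b₈ v - u * F2 b₂ b₄ b₆ v) - (G2 b₄ b₆ b₈ u - v * F2 b₂ b₄ b₆ u) := by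
      rw [hβ₆, hβ₄, hv]; unfold G2 F2; ring
    rw [this, h1, h2]; ring
  have e1' : β₆ = w ^ 3 - β₄ * w := by
    have := (mul_eq_zero.mp e1).resolve_left hw
    linear_combination -this
  have e2 : β₂ * β₆ - β₄ ^ 2 = -4 * w * β₆ := by
    have : β₂ * β₆ - β₄ ^ 2 + 4 * w * β₆ =
        (b₂ * b₆ - b₄ ^ 2 - 4 * b₈) - 4 * (G2 b₄ b₆ b₈ u - v * F2 b₂ b₄ b₆ u) := by
      rw [hβ₆, hβ₄, hβ₂, hv]; unfold G2 F2; ring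
    rw [h1, ← hb] at this
    linear_combination this
  rw [← hβ₆] at hfu ⊢
  obtain ⟨b, hbdef⟩ : ∃ b, b = w ^ 3 / β₆ := ⟨_, rfl⟩
  have hb0 : b ≠ 0 := by rw [hbdef]; exact div_ne_zero (pow_ne_zero 3 hw) hfu
  have f6 : β₆ = w ^ 3 / b := by rw [hbdef]; field_simp
  have f4 : β₄ = w ^ 2 * (b - 1) / b := by
    have : β₄ * w = w ^ 3 - w ^ 3 / b := by rw [← f6]; linear_combination e1'
    field_simp at this ⊢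
    linear_combination this
  have f2 : β₂ = w * (b ^ 2 - 6 * b + 1) / b := by
    have h6 : w ^ 3 / b ≠ 0 := f6 ▸ hfu
    have : β₂ * (w ^ 3 / b) = (w ^ 2 * (b - 1) / b) ^ 2 - 4 * w * (w ^ 3 / b) := by
      rw [← f6, ← f4]; linear_combination e2
    field_simp at this ⊢
    linear_combination this
  have g2 : b₂ = w * (b ^ 2 - 6 * b + 1) / b - 12 * u := by rw [← f2, hβ₂]; ring
  have g4 : b₄ = w ^ 2 * (b - 1) / b - u * (w * (b ^ 2 - 6 * b + 1) / b - 12 * u) - 6 * u ^ 2 := by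
    rw [← f4, ← g2, hβ₄]; ring
  refine ⟨w, b, hw, hb0, hv, hbdef, g2, g4, ?_⟩
  rw [← g4, ← g2, ← f6, hβ₆]; unfold F2; ring

/-- The main algebraic consequences of the `5`-cycle relations together with a root of `ψ₃`. -/
theorem core [CharZero K] {b₂ b₄ b₆ b₈ u v x₀ : K} (hb : 4 * b₈ = b₂ * b₆ - b₄ ^ 2)
    (huv : u ≠ v) (hfu : F2 b₂ b₄ b₆ u ≠ 0)
    (h1 : G2 b₄ b₆ b₈ u = v * F2 b₂ b₄ b₆ u) (h2 : G2 b₄ b₆ b₈ v = u * F2 b₂ b₄ b₆ v)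
    (h3 : P3 b₂ b₄ b₆ b₈ x₀ = 0) (hxu : x₀ ≠ u) (hxv : x₀ ≠ v) :
    ∃ b z : K, b ≠ 0 ∧ z ≠ 0 ∧ z ≠ 1 ∧ z = (x₀ - u) / (v - u) ∧
      b = (v - u) ^ 3 / F2 b₂ b₄ b₆ u ∧ F2 b₂ b₄ b₆ v = b * (v - u) ^ 3 ∧
      z ^ 3 * b ^ 2 + 3 * z ^ 2 * (z - 1) ^ 2 * b + (z - 1) ^ 3 = 0 ∧
      b₂ ^ 2 - 24 * b₄ = ((v - u) / b) ^ 2 * (b ^ 4 - 12 * b ^ 3 + 14 * b ^ 2 + 12 * b + 1) ∧
      -b₂ ^ 2 * b₈ - 8 * b₄ ^ 3 - 27 * b₆ ^ 2 + 9 * b₂ * b₄ * b₆ =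
        ((v - u) / b) ^ 6 * (b ^ 5 * (b ^ 2 - 11 * b - 1)) := by
  obtain ⟨w, b, hw, hb0, hv, hbdef, g2, g4, g6⟩ := solve_b hb huv hfu h1 h2
  have hvu : v - u = w := by rw [hv]; ring
  have g8 : b₈ = (b₂ * b₆ - b₄ ^ 2) / 4 := by field_simp; linear_combination hb
  rw [hvu]
  have hz0 : (x₀ - u) / w ≠ 0 := div_ne_zero (sub_ne_zero.mpr hxu) hw
  have hz1 : (x₀ - u) / w ≠ 1 := by
    intro h
    rw [div_eq_one_iff_eq hw] at h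
    apply hxv
    rw [hv]; linear_combination h
  obtain ⟨z, hz⟩ : ∃ z, z = (x₀ - u) / w := ⟨_, rfl⟩
  have hx₀ : x₀ = u + z * w := by rw [hz]; field_simp; ring
  rw [← hz] at hz0 hz1
  refine ⟨b, z, hb0, hz0, hz1, hz, hbdef, ?_, ?_, ?_, ?_⟩
  · rw [hv, g6, g4, g2]; unfold F2; field_simp; ring
  · have : P3 b₂ b₄ b₆ b₈ x₀ * b = w ^ 4 *
        (z ^ 3 * b ^ 2 + 3 * z ^ 2 * (z - 1) ^ 2 * b + (z - 1) ^ 3) := by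
      rw [g8, hx₀, g6, g4, g2]; unfold P3; field_simp; ring
    rw [h3, zero_mul] at this
    exact (mul_eq_zero.mp this.symm).resolve_left (pow_ne_zero 4 hw)
  · rw [g4, g2]; field_simp; ring
  · rw [g8, g6, g4, g2]; field_simp; ring

/-- the `X`-coordinate on `X₀(15) : y² = X (X - 9) (X - 25)`. -/
def Xf (z : K) : K := 9 * (2 * z - 1) ^ 2

/-- the `y`-coordinate on `X₀(15) : y² = X (X - 9) (X - 25)`. -/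
def Yf (b z : K) : K := 36 * (2 * z - 1) * (2 * z ^ 2 * b + 3 * z * (z - 1) ^ 2) / (z - 1)

theorem Yf_sq {b z : K} (hz1 : z ≠ 1)
    (h : z ^ 3 * b ^ 2 + 3 * z ^ 2 * (z - 1) ^ 2 * b + (z - 1) ^ 3 = 0) :
    Yf b z ^ 2 = Xf z * (Xf z - 9) * (Xf z - 25) := by
  have hz1' : z - 1 ≠ 0 := sub_ne_zero.mpr hz1
  unfold Yf Xf
  field_simp
  linear_combination (36 ^ 2 * 4 * z * (2 * z - 1) ^ 2) * h

theorem Yf_swap {b z : K} (hb : b ≠ 0) (hz0 : z ≠ 0) (hz1 : z ≠ 1)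
    (h : z ^ 3 * b ^ 2 + 3 * z ^ 2 * (z - 1) ^ 2 * b + (z - 1) ^ 3 = 0) :
    Yf (-1 / b) (1 - z) = Yf b z := by
  have hz1' : z - 1 ≠ 0 := sub_ne_zero.mpr hz1
  have hz1'' : 1 - z - 1 ≠ 0 := by simpa using hz0
  unfold Yf
  field_simp
  linear_combination (144 * z - 72) * h

theorem Xf_swap (z : K) : Xf (1 - z) = Xf z := by unfold Xf; ring

theorem tau_formula [CharZero K] {b z : K} (hb : b ≠ 0) (hz0 : z ≠ 0) (hz1 : z ≠ 1)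
    (h : z ^ 3 * b ^ 2 + 3 * z ^ 2 * (z - 1) ^ 2 * b + (z - 1) ^ 3 = 0) :
    (b - 1 / b) * (2 * ((Xf z - 9) / 36) ^ 2) =
      Yf b z * ((Xf z - 9) / 36 + 1) / 36 + 3 * ((Xf z - 9) / 36) * (3 * ((Xf z - 9) / 36) + 1) := by
  have hz1' : z - 1 ≠ 0 := sub_ne_zero.mpr hz1
  unfold Yf Xf
  field_simp
  linear_combination (-2592 * z ^ 2) * h

end Algebra

end Fermat.Agent.S51
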