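import Fermat.Agent.S51.Algebra

set_option autoImplicit false
set_option linter.unusedSectionVars false

namespace Fermat.Agent.S51

section Division

variable {K : Type*} [Field K]

/-- `ψ₄ / ψ₂` as a function. -/
def Q4 (b₂ b₄ b₆ b₈ x : K) : K :=
  2 * x ^ 6 + b₂ * x ^ 5 + 5 * b₄ * x ^ 4 + 10 * b₆ * x ^ 3 + 10 * b₈ * x ^ 2 +
    (b₂ * b₈ - b₄ * b₆) * x + (b₄ * b₈ - b₆ ^ 2)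

/-- `ψ₅` as a function. -/
def P5 (b₂ b₄ b₆ b₈ x : K) : K :=
  Q4 b₂ b₄ b₆ b₈ x * F2 b₂ b₄ b₆ x ^ 2 - P3 b₂ b₄ b₆ b₈ x ^ 3

variable [CharZero K] {b₂ b₄ b₆ b₈ : K}

theorem id0 (hb : 4 * b₈ = b₂ * b₆ - b₄ ^ 2) (x : K) :
    16 * P3 b₂ b₄ b₆ b₈ x =
      2 * F2 b₂ b₄ b₆ x * (24 * x + 2 * b₂) - (12 * x ^ 2 + 2 * b₂ * x + 2 * b₄) ^ 2 := by
  unfold P3 F2
  linear_combination 4 * hb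

theorem g2_sub (x : K) :
    G2 b₄ b₆ b₈ x - x * F2 b₂ b₄ b₆ x = - P3 b₂ b₄ b₆ b₈ x := by
  unfold P3 F2 G2; ring

theorem id1 (hb : 4 * b₈ = b₂ * b₆ - b₄ ^ 2) (x : K) :
    4 * G2 b₄ b₆ b₈ x ^ 3 + b₂ * G2 b₄ b₆ b₈ x ^ 2 * F2 b₂ b₄ b₆ x +
      2 * b₄ * G2 b₄ b₆ b₈ x * F2 b₂ b₄ b₆ x ^ 2 + b₆ * F2 b₂ b₄ b₆ x ^ 3 =
      Q4 b₂ b₄ b₆ b₈ x ^ 2 := by
  have g8 : b₈ = (b₂ * b₆ - b₄ ^ 2) / 4 := by field_simp; linear_combination hb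
  subst g8
  unfold Q4 F2 G2; ring

theorem id2 (hb : 4 * b₈ = b₂ * b₆ - b₄ ^ 2) (x : K) :
    G2 b₄ b₆ b₈ x ^ 4 - b₄ * G2 b₄ b₆ b₈ x ^ 2 * F2 b₂ b₄ b₆ x ^ 2 -
      2 * b₆ * G2 b₄ b₆ b₈ x * F2 b₂ b₄ b₆ x ^ 3 - b₈ * F2 b₂ b₄ b₆ x ^ 4 -
      x * F2 b₂ b₄ b₆ x * Q4 b₂ b₄ b₆ b₈ x ^ 2 =
      - P3 b₂ b₄ b₆ b₈ x * P5 b₂ b₄ b₆ b₈ x := by
  have g8 : b₈ = (b₂ * b₆ - b₄ ^ 2) / 4 := by field_simp; linear_combination hb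
  subst g8
  unfold P5 Q4 P3 F2 G2; ring

/-- `ψ₂²(2P) ψ₂(P)⁶ = (ψ₄/ψ₂)²`. -/
theorem F2_dbl (hb : 4 * b₈ = b₂ * b₆ - b₄ ^ 2) {x : K} (hf : F2 b₂ b₄ b₆ x ≠ 0) :
    F2 b₂ b₄ b₆ (G2 b₄ b₆ b₈ x / F2 b₂ b₄ b₆ x) * F2 b₂ b₄ b₆ x ^ 3 = Q4 b₂ b₄ b₆ b₈ x ^ 2 := by
  rw [← id1 hb x]
  generalize G2 b₄ b₆ b₈ x = g at *
  generalize hF : F2 b₂ b₄ b₆ x = f at *
  unfold F2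
  field_simp

/-- `(x(4P) - x(P))`, cleared of denominators. -/
theorem G2_dbl (hb : 4 * b₈ = b₂ * b₆ - b₄ ^ 2) {x : K} (hf : F2 b₂ b₄ b₆ x ≠ 0) :
    (G2 b₄ b₆ b₈ (G2 b₄ b₆ b₈ x / F2 b₂ b₄ b₆ x) -
      x * F2 b₂ b₄ b₆ (G2 b₄ b₆ b₈ x / F2 b₂ b₄ b₆ x)) * F2 b₂ b₄ b₆ x ^ 4 =
      - P3 b₂ b₄ b₆ b₈ x * P5 b₂ b₄ b₆ b₈ x := by
  rw [← id2 hb x, ← F2_dbl hb hf]
  generalize G2 b₄ b₆ b₈ x = g at *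
  generalize hF : F2 b₂ b₄ b₆ x = f at *
  unfold F2 G2
  field_simp

end Division

end Fermat.Agent.S51
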