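import Fermat.Agent.S51.Algebra

set_option autoImplicit false
set_option linter.unusedSectionVars false
set_option linter.unusedVariables false

namespace Fermat.Agent.S51

open WeierstrassCurve WeierstrassCurve.Affine WeierstrassCurve.Affine.Point

section Doubling

variable {K : Type*} [Field K] [DecidableEq K] (V : WeierstrassCurve.Affine K)

/-- `ψ₂²` of a Weierstrass curve as a function. -/
abbrev f2 (x : K) : K := F2 V.b₂ V.b₄ V.b₆ x

/-- numerator of the doubling map. -/
abbrev g2 (x : K) : K := G2 V.b₄ V.b₆ V.b₈ x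

/-- `ψ₃` as a function. -/
abbrev p3 (x : K) : K := P3 V.b₂ V.b₄ V.b₆ V.b₈ x

variable {V}

lemma f2_eq_sq {x y : K} (h : V.Equation x y) : f2 V x = (y - V.negY x y) ^ 2 := by
  rw [equation_iff] at h
  simp only [f2, F2, negY, WeierstrassCurve.b₂, WeierstrassCurve.b₄, WeierstrassCurve.b₆]
  linear_combination (-4 : K) * h

lemma dbl_zero {x y : K} (h : V.Nonsingular x y) (hf : f2 V x = 0) :
    some x y h + some x y h = 0 := by
  apply add_self_of_Y_eq
  rw [f2_eq_sq h.1] at hf
  exact sub_eq_zero.mp (pow_eq_zero_iff two_ne_zero |>.mp hf)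

lemma dbl_some {x y : K} (h : V.Nonsingular x y) (hf : f2 V x ≠ 0) :
    ∃ (y' : K) (h' : V.Nonsingular (g2 V x / f2 V x) y'),
      some x y h + some x y h = some (g2 V x / f2 V x) y' h' := by
  have hy : y ≠ V.negY x y := by
    intro hy
    apply hf
    rw [f2_eq_sq h.1, ← hy, sub_self]; ring
  have hX : V.addX x x (V.slope x x y y) = g2 V x / f2 V x := by
    have hy' : y - V.negY x y ≠ 0 := sub_ne_zero.mpr hy
    rw [slope_of_Y_ne rfl hy, f2_eq_sq h.1, eq_div_iff (pow_ne_zero 2 hy')]
    have he := h.1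
    rw [equation_iff] at he
    simp only [addX]
    field_simp
    simp only [g2, G2, negY, WeierstrassCurve.b₄, WeierstrassCurve.b₆, WeierstrassCurve.b₈]
    linear_combination (-8 * x - V.a₁ ^ 2 - 4 * V.a₂) * he
  rw [add_self_of_Y_ne hy]
  rw [← hX]
  exact ⟨_, _, rfl⟩

end Doubling

end Fermat.Agent.S51
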