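import Fermat.Agent.S51.Torsion

set_option autoImplicit false
set_option linter.unusedSectionVars false
set_option linter.unusedVariables false

namespace Fermat.Agent.S51

open WeierstrassCurve WeierstrassCurve.Affine WeierstrassCurve.Affine.Point Polynomial

section Exist

variable {K : Type*} [Field K] [DecidableEq K] [CharZero K] {V : WeierstrassCurve.Affine K}

lemma eval_Ψ₃ (x : K) : V.Ψ₃.eval x = p3 V x := by
  simp [WeierstrassCurve.Ψ₃, p3, P3]

lemma eval_Ψ₂Sq (x : K) : V.Ψ₂Sq.eval x = f2 V x := by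
  simp [WeierstrassCurve.Ψ₂Sq, f2, F2]

lemma eval_preΨ₄ (x : K) : V.preΨ₄.eval x = q4 V x := by
  simp [WeierstrassCurve.preΨ₄, q4, Q4]

lemma preΨ'_five : V.preΨ' 5 = V.preΨ₄ * V.Ψ₂Sq ^ 2 - V.Ψ₃ ^ 3 := by
  have := V.preΨ'_odd 0
  simpa using this

lemma eval_preΨ'_five (x : K) : (V.preΨ' 5).eval x = p5 V x := by
  rw [preΨ'_five]
  simp only [eval_sub, eval_mul, eval_pow, eval_Ψ₃, eval_Ψ₂Sq, eval_preΨ₄, p5, P5]

lemma exists_point [IsAlgClosed K] (hΔ : V.Δ ≠ 0) (x : K) : ∃ y, V.Nonsingular x y := by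
  obtain ⟨s, hs⟩ := IsAlgClosed.exists_eq_mul_self (f2 V x)
  refine ⟨(s - V.a₁ * x - V.a₃) / 2, (equation_iff_nonsingular_of_Δ_ne_zero hΔ).mp ?_⟩
  rw [equation_iff]
  simp only [f2, F2, WeierstrassCurve.b₂, WeierstrassCurve.b₄, WeierstrassCurve.b₆] at hs
  field_simp
  linear_combination (-1 : K) * hs

lemma exists_three_torsion [IsAlgClosed K] (hΔ : V.Δ ≠ 0) :
    ∃ P : V.Point, P ≠ 0 ∧ (3 : ℕ) • P = 0 := by
  have hdeg : V.Ψ₃.degree ≠ 0 := by
    have h3 : (3 : K) ≠ 0 := by norm_num
    have := V.natDegree_Ψ₃ h3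
    intro h
    rw [Polynomial.degree_eq_natDegree (V.Ψ₃_ne_zero h3), this] at h
    norm_num at h
  obtain ⟨x, hx⟩ := IsAlgClosed.exists_root V.Ψ₃ hdeg
  obtain ⟨y, hy⟩ := exists_point hΔ x
  rw [IsRoot.def, eval_Ψ₃] at hx
  exact ⟨some x y hy, some_ne_zero hy, three_nsmul_of_p3 hy hx⟩

lemma exists_five_torsion [IsAlgClosed K] (hΔ : V.Δ ≠ 0) :
    ∃ P : V.Point, P ≠ 0 ∧ (5 : ℕ) • P = 0 := by
  have h5 : ((5 : ℕ) : K) ≠ 0 := by norm_num
  have hdeg : (V.preΨ' 5).degree ≠ 0 := by
    have := V.natDegree_preΨ'_pos (n := 5) (by norm_num) h5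
    intro h
    rw [Polynomial.degree_eq_natDegree (V.preΨ'_ne_zero h5)] at h
    have h' : (V.preΨ' 5).natDegree = 0 := by exact_mod_cast h
    omega
  obtain ⟨x, hx⟩ := IsAlgClosed.exists_root (V.preΨ' 5) hdeg
  obtain ⟨y, hy⟩ := exists_point hΔ x
  rw [IsRoot.def, eval_preΨ'_five] at hx
  exact ⟨some x y hy, some_ne_zero hy, five_nsmul_of_p5 hy hx⟩

/-- coordinates of a point. -/
def toOpt : V.Point → Option (K × K)
  | .zero => none
  | .some x y _ => Option.some (x, y)

lemma toOpt_injective : Function.Injective (toOpt (V := V)) := by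
  rintro (_ | ⟨x₁, y₁, h₁⟩) (_ | ⟨x₂, y₂, h₂⟩) h <;>
    simp only [toOpt, Option.some.injEq, Prod.mk.injEq, reduceCtorEq] at h
  · rfl
  · obtain ⟨rfl, rfl⟩ := h; rfl

/-- the quadratic polynomial satisfied by the `y`-coordinates over `x`. -/
noncomputable def quadY (V : WeierstrassCurve.Affine K) (x : K) : K[X] :=
  X ^ 2 + C (V.a₁ * x + V.a₃) * X - C (x ^ 3 + V.a₂ * x ^ 2 + V.a₄ * x + V.a₆)

lemma quadY_natDegree (x : K) : (quadY V x).natDegree = 2 := by
  unfold quadY; compute_degree!

lemma quadY_ne_zero (x : K) : quadY V x ≠ 0 := by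
  intro h
  have := quadY_natDegree (V := V) x
  rw [h] at this
  simp at this

/-- A set of points whose `x`-coordinates are roots of a fixed nonzero polynomial is finite, of
cardinality at most `2 deg + 1`. -/
lemma finite_and_ncard_le (Φ : K[X]) (hΦ : Φ ≠ 0) (S : Set V.Point)
    (hS : ∀ (x y : K) (h : V.Nonsingular x y), some x y h ∈ S → Φ.eval x = 0) :
    S.Finite ∧ S.ncard ≤ 2 * Φ.natDegree + 1 := by
  classical
  let pairs : Finset (K × K) :=
    Φ.roots.toFinset.biUnion fun x => (quadY V x).roots.toFinset.image fun y => (x, y)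
  have hcard : pairs.card ≤ 2 * Φ.natDegree := by
    calc pairs.card ≤ ∑ x ∈ Φ.roots.toFinset,
          ((quadY V x).roots.toFinset.image fun y => (x, y)).card := Finset.card_biUnion_le
      _ ≤ ∑ x ∈ Φ.roots.toFinset, 2 := by
          apply Finset.sum_le_sum
          intro x _
          calc ((quadY V x).roots.toFinset.image fun y => (x, y)).card
              ≤ (quadY V x).roots.toFinset.card := Finset.card_image_le
            _ ≤ Multiset.card (quadY V x).roots := Multiset.toFinset_card_le _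
            _ ≤ (quadY V x).natDegree := Polynomial.card_roots' _
            _ = 2 := quadY_natDegree x
      _ = Φ.roots.toFinset.card * 2 := by simp
      _ ≤ Φ.natDegree * 2 := by
          apply Nat.mul_le_mul_right
          exact (Multiset.toFinset_card_le _).trans (Polynomial.card_roots' _)
      _ = 2 * Φ.natDegree := by ring
  let T : Finset (Option (K × K)) := Finset.insertNone pairs
  have hT : T.card ≤ 2 * Φ.natDegree + 1 := by
    simp only [T, Finset.card_insertNone]; omega
  have hmaps : ∀ P ∈ S, toOpt P ∈ (T : Set (Option (K × K))) := by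
    rintro (_ | ⟨x, y, h⟩) hP
    · simp [toOpt, T]
    · have hx := hS x y h hP
      simp only [toOpt, T, Finset.mem_coe, Finset.mem_insertNone,
        Option.mem_def, Option.some.injEq, forall_eq', pairs, Finset.mem_biUnion,
        Multiset.mem_toFinset, Finset.mem_image, Prod.mk.injEq]
      refine ⟨x, (mem_roots hΦ).mpr hx, y, (mem_roots (quadY_ne_zero x)).mpr ?_, rfl, rfl⟩
      have he := (equation_iff x y).mp h.1
      simp only [IsRoot.def, quadY, eval_sub, eval_add, eval_pow, eval_X, eval_mul, eval_C]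
      linear_combination he
  have hfin : S.Finite :=
    Set.Finite.of_finite_image ((T.finite_toSet).subset (Set.image_subset_iff.mpr hmaps))
      (toOpt_injective.injOn)
  refine ⟨hfin, ?_⟩
  calc S.ncard ≤ (T : Set (Option (K × K))).ncard :=
        Set.ncard_le_ncard_of_injOn toOpt hmaps toOpt_injective.injOn T.finite_toSet
    _ = T.card := Set.ncard_coe_finset T
    _ ≤ _ := hT

end Exist

end Fermat.Agent.S51
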