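import Fermat.Agent.S51.Exist
import Fermat.Prelude.Def_FLTPrelim_GaloisRep

set_option autoImplicit false
set_option linter.unusedSectionVars false
set_option linter.unusedVariables false

namespace Fermat.Agent.S51

open WeierstrassCurve WeierstrassCurve.Affine WeierstrassCurve.Affine.Point Polynomial

section Line

/-- A proper nonzero subspace of a space with fewer than `p³` elements is a line. -/
lemma line_of_proper {p : ℕ} [Fact p.Prime] {M : Type*} [AddCommGroup M] [Module (ZMod p) M]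
    [Finite M] (hcard : Nat.card M < p ^ 3) (N : Submodule (ZMod p) M) (h0 : N ≠ ⊥) (h1 : N ≠ ⊤) :
    ∃ P ∈ N, P ≠ 0 ∧ ∀ Q ∈ N, ∃ k : ℕ, k < p ∧ Q = k • P := by
  have hp : p.Prime := Fact.out
  have : Module.Finite (ZMod p) M := Module.Finite.of_finite
  have hM : Module.finrank (ZMod p) M < 3 := by
    have h := Module.natCard_eq_pow_finrank (K := ZMod p) (V := M)
    rw [Nat.card_zmod] at h
    rw [h] at hcard
    exact (Nat.pow_lt_pow_iff_right hp.one_lt).mp hcard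
  have hN1 : Module.finrank (ZMod p) N < Module.finrank (ZMod p) M := Submodule.finrank_lt h1
  have hN0 : Module.finrank (ZMod p) N ≠ 0 := by
    intro h
    exact h0 (Submodule.finrank_eq_zero.mp h)
  have hN : Module.finrank (ZMod p) N = 1 := by omega
  obtain ⟨P, hPN, hP0⟩ := (Submodule.ne_bot_iff N).mp h0
  refine ⟨P, hPN, hP0, fun Q hQ => ?_⟩
  have hP0' : (⟨P, hPN⟩ : N) ≠ 0 := by
    intro h
    exact hP0 (congrArg Subtype.val h)
  obtain ⟨c, hc⟩ := (finrank_eq_one_iff_of_nonzero' (⟨P, hPN⟩ : N) hP0').mp hN ⟨Q, hQ⟩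
  refine ⟨c.val, ZMod.val_lt c, ?_⟩
  have hc' : c • P = Q := congrArg Subtype.val hc
  rw [← hc', ← Nat.cast_smul_eq_nsmul (ZMod p), ZMod.natCast_zmod_val]

end Line

section Card

variable {K : Type*} [Field K] [DecidableEq K] [CharZero K] (V : WeierstrassCurve.Affine K)

lemma mem_torsionBy_nat {n : ℕ} {P : V.Point} :
    P ∈ Submodule.torsionBy ℤ V.Point (n : ℕ) ↔ n • P = 0 := by
  rw [Submodule.mem_torsionBy_iff, natCast_zsmul]

lemma card_three_torsion : Finite (Submodule.torsionBy ℤ V.Point (3 : ℕ)) ∧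
    Nat.card (Submodule.torsionBy ℤ V.Point (3 : ℕ)) < 3 ^ 3 := by
  have h3 : (3 : K) ≠ 0 := by norm_num
  obtain ⟨hf, hc⟩ := finite_and_ncard_le V.Ψ₃ (V.Ψ₃_ne_zero h3)
    (Submodule.torsionBy ℤ V.Point (3 : ℕ) : Set V.Point) (by
      intro x y h hP
      rw [eval_Ψ₃]
      exact p3_eq_zero_of_three_nsmul h ((mem_torsionBy_nat V).mp hP))
  refine ⟨hf, ?_⟩
  rw [V.natDegree_Ψ₃ h3] at hc
  have : Nat.card (Submodule.torsionBy ℤ V.Point (3 : ℕ)) =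
      (Submodule.torsionBy ℤ V.Point (3 : ℕ) : Set V.Point).ncard := rfl
  rw [this]
  omega

lemma card_five_torsion : Finite (Submodule.torsionBy ℤ V.Point (5 : ℕ)) ∧
    Nat.card (Submodule.torsionBy ℤ V.Point (5 : ℕ)) < 5 ^ 3 := by
  have h3 : (3 : K) ≠ 0 := by norm_num
  have h5 : ((5 : ℕ) : K) ≠ 0 := by norm_num
  obtain ⟨hf, hc⟩ := finite_and_ncard_le (V.Ψ₃ * V.preΨ' 5)
    (mul_ne_zero (V.Ψ₃_ne_zero h3) (V.preΨ'_ne_zero h5))
    (Submodule.torsionBy ℤ V.Point (5 : ℕ) : Set V.Point) (by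
      intro u y h hP
      rw [eval_mul, eval_Ψ₃, eval_preΨ'_five]
      obtain ⟨v, y', h', -, -, hfu, hfv, h1, h2⟩ :=
        five_torsion_data h ((mem_torsionBy_nat V).mp hP)
      have hv : v = g2 V u / f2 V u := by rw [h1]; field_simp
      have hG := G2_dbl V.b_relation hfu
      rw [← show v = G2 V.b₄ V.b₆ V.b₈ u / F2 V.b₂ V.b₄ V.b₆ u from hv,
        show G2 V.b₄ V.b₆ V.b₈ v = u * F2 V.b₂ V.b₄ V.b₆ v from h2, sub_self, zero_mul] at hG
      have : p3 V u * p5 V u = -(-P3 V.b₂ V.b₄ V.b₆ V.b₈ u * P5 V.b₂ V.b₄ V.b₆ V.b₈ u) := by ring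
      rw [this, ← hG, _root_.neg_zero])
  refine ⟨hf, ?_⟩
  rw [natDegree_mul (V.Ψ₃_ne_zero h3) (V.preΨ'_ne_zero h5), V.natDegree_Ψ₃ h3,
    V.natDegree_preΨ' h5] at hc
  have : Nat.card (Submodule.torsionBy ℤ V.Point (5 : ℕ)) =
      (Submodule.torsionBy ℤ V.Point (5 : ℕ) : Set V.Point).ncard := rfl
  rw [this]
  have h12 : (5 ^ 2 - if Even 5 then 4 else 1) / 2 = 12 := by
    rw [if_neg (by decide)]; norm_num
  rw [h12] at hc
  omega

end Card

section Stable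

variable {K : Type*} [Field K] [DecidableEq K] [Algebra ℚ K] [CharZero K]
  (E : WeierstrassCurve.Affine ℚ)

lemma smul_some (σ : K ≃ₐ[ℚ] K) {x y : K} (h : (E⁄K).Nonsingular x y) :
    ∃ h' : (E⁄K).Nonsingular (σ x) (σ y),
      σ • (some x y h : (E⁄K).Point) = some (σ x) (σ y) h' :=
  ⟨_, rfl⟩

/-- A Galois-stable line in `E[3]` gives a `3`-torsion point with rational `x`-coordinate. -/
theorem stable_three [IsGalois ℚ K]
    (N : Submodule (ZMod 3) (Submodule.torsionBy ℤ (E⁄K).Point (3 : ℕ)))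
    (hN : IsGaloisStable ℚ N) (h0 : N ≠ ⊥) (h1 : N ≠ ⊤) :
    ∃ (x₀ : ℚ) (y : K) (h : (E⁄K).Nonsingular (algebraMap ℚ K x₀) y),
      (3 : ℕ) • (some _ y h : (E⁄K).Point) = 0 := by
  obtain ⟨hfin, hcard⟩ := card_three_torsion (E⁄K)
  obtain ⟨P, hPN, hP0, hline⟩ := line_of_proper hcard N h0 h1
  obtain ⟨P₀, hP₀⟩ := P
  have hP3 : (3 : ℕ) • P₀ = 0 := (mem_torsionBy_nat _).mp hP₀
  have hP00 : P₀ ≠ 0 := by
    rintro rfl
    exact hP0 rfl
  rcases P₀ with _ | ⟨x, y, h⟩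
  · exact absurd rfl hP00
  have hfix : ∀ σ : K ≃ₐ[ℚ] K, σ x = x := by
    intro σ
    obtain ⟨k, hk, hσ⟩ := hline _ (hN σ _ hPN)
    have hσ' : σ • (some x y h : (E⁄K).Point) = k • (some x y h : (E⁄K).Point) :=
      congrArg Subtype.val hσ
    obtain ⟨h', hs⟩ := smul_some E σ h
    rw [hs] at hσ'
    interval_cases k
    · rw [zero_smul] at hσ'
      exact absurd hσ' (some_ne_zero h')
    · rw [one_smul] at hσ'
      exact X_eq_iff.mpr (Or.inl hσ')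
    · have : (2 : ℕ) • (some x y h : (E⁄K).Point) = - some x y h := by
        rw [eq_neg_iff_add_eq_zero, ← hP3]; abel
      rw [this] at hσ'
      exact X_eq_iff.mpr (Or.inr hσ')
  obtain ⟨x₀, rfl⟩ := (InfiniteGalois.mem_range_algebraMap_iff_fixed x).mpr hfix
  exact ⟨x₀, y, h, hP3⟩

/-- A Galois-stable line in `E[5]` gives a point `P` of order `5` such that the pair
`{x(P), x(2P)}` is Galois-stable. -/
theorem stable_five
    (N : Submodule (ZMod 5) (Submodule.torsionBy ℤ (E⁄K).Point (5 : ℕ)))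
    (hN : IsGaloisStable ℚ N) (h0 : N ≠ ⊥) (h1 : N ≠ ⊤) :
    ∃ (u y v y' : K) (h : (E⁄K).Nonsingular u y) (h' : (E⁄K).Nonsingular v y'),
      (5 : ℕ) • (some u y h : (E⁄K).Point) = 0 ∧
      (2 : ℕ) • (some u y h : (E⁄K).Point) = some v y' h' ∧
      (u ≠ v ∧ f2 (E⁄K) u ≠ 0 ∧ f2 (E⁄K) v ≠ 0 ∧ g2 (E⁄K) u = v * f2 (E⁄K) u ∧
        g2 (E⁄K) v = u * f2 (E⁄K) v) ∧
      ∀ σ : K ≃ₐ[ℚ] K, (σ u = u ∧ σ v = v) ∨ (σ u = v ∧ σ v = u) := by
  have : Fact (Nat.Prime 5) := ⟨by norm_num⟩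
  obtain ⟨hfin, hcard⟩ := card_five_torsion (E⁄K)
  obtain ⟨P, hPN, hP0, hline⟩ := line_of_proper hcard N h0 h1
  obtain ⟨P₀, hP₀⟩ := P
  have hP5 : (5 : ℕ) • P₀ = 0 := (mem_torsionBy_nat _).mp hP₀
  have hP00 : P₀ ≠ 0 := by
    rintro rfl
    exact hP0 rfl
  rcases P₀ with _ | ⟨u, y, h⟩
  · exact absurd rfl hP00
  obtain ⟨v, y', h', h2P, hrel⟩ := five_torsion_data h hP5
  refine ⟨u, y, v, y', h, h', hP5, h2P, hrel, fun σ => ?_⟩
  obtain ⟨k, hk, hσ⟩ := hline _ (hN σ _ hPN)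
  have hσ' : σ • (some u y h : (E⁄K).Point) = k • (some u y h : (E⁄K).Point) :=
    congrArg Subtype.val hσ
  have hσ2 : σ • (some v y' h' : (E⁄K).Point) = k • (some v y' h' : (E⁄K).Point) := by
    rw [← h2P, smul_comm k, ← hσ']
    exact (Point.map σ.toAlgHom).map_nsmul _ _
  obtain ⟨hs, hs'⟩ := smul_some E σ h
  obtain ⟨ht, ht'⟩ := smul_some E σ h'
  rw [hs'] at hσ'
  rw [ht'] at hσ2
  obtain ⟨P, hP⟩ : ∃ P : (E⁄K).Point, P = some u y h := ⟨_, rfl⟩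
  rw [← hP] at hσ' h2P hP5
  rw [← h2P] at hσ2
  interval_cases k
  · rw [zero_smul] at hσ'
    exact absurd hσ' (some_ne_zero hs)
  · left
    rw [one_smul] at hσ' hσ2
    rw [hP] at hσ'
    rw [h2P] at hσ2
    exact ⟨X_eq_iff.mpr (Or.inl hσ'), X_eq_iff.mpr (Or.inl hσ2)⟩
  · right
    have e : (2 : ℕ) • (2 : ℕ) • P = - P := by
      rw [eq_neg_iff_add_eq_zero, ← hP5]; abel
    rw [e, hP] at hσ2
    rw [h2P] at hσ'
    exact ⟨X_eq_iff.mpr (Or.inl hσ'), X_eq_iff.mpr (Or.inr hσ2)⟩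
  · right
    have e : (3 : ℕ) • (2 : ℕ) • P = P := by
      have : (3 : ℕ) • (2 : ℕ) • P = (5 : ℕ) • P + P := by abel
      rw [this, hP5, zero_add]
    have e' : (3 : ℕ) • P = - ((2 : ℕ) • P) := by
      rw [eq_neg_iff_add_eq_zero, ← hP5]; abel
    rw [e, hP] at hσ2
    rw [e', h2P] at hσ'
    exact ⟨X_eq_iff.mpr (Or.inr hσ'), X_eq_iff.mpr (Or.inl hσ2)⟩
  · left
    have e : (4 : ℕ) • (2 : ℕ) • P = - ((2 : ℕ) • P) := by
      have : (4 : ℕ) • (2 : ℕ) • P = (2 : ℕ) • (5 : ℕ) • P - (2 : ℕ) • P := by abel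
      rw [this, hP5]; simp
    have e' : (4 : ℕ) • P = - P := by
      rw [eq_neg_iff_add_eq_zero, ← hP5]; abel
    rw [e, h2P] at hσ2
    rw [e', hP] at hσ'
    exact ⟨X_eq_iff.mpr (Or.inr hσ'), X_eq_iff.mpr (Or.inr hσ2)⟩

end Stable

end Fermat.Agent.S51
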