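import Fermat.Agent.S51.Doubling
import Fermat.Agent.S51.Division

set_option autoImplicit false
set_option linter.unusedSectionVars false
set_option linter.unusedVariables false

namespace Fermat.Agent.S51

open WeierstrassCurve WeierstrassCurve.Affine WeierstrassCurve.Affine.Point

section Torsion

variable {K : Type*} [Field K] [DecidableEq K] [CharZero K] {V : WeierstrassCurve.Affine K}

/-- `ψ₄/ψ₂` as a function. -/
abbrev q4 (V : WeierstrassCurve.Affine K) (x : K) : K := Q4 V.b₂ V.b₄ V.b₆ V.b₈ x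

/-- `ψ₅` as a function. -/
abbrev p5 (V : WeierstrassCurve.Affine K) (x : K) : K := P5 V.b₂ V.b₄ V.b₆ V.b₈ x

lemma f2_ne_zero_of_p3 {x y : K} (h : V.Nonsingular x y) (hp : p3 V x = 0) : f2 V x ≠ 0 := by
  intro hf
  have h0 := id0 V.b_relation x
  rw [show P3 V.b₂ V.b₄ V.b₆ V.b₈ x = 0 from hp, show F2 V.b₂ V.b₄ V.b₆ x = 0 from hf] at h0
  have h1 : 12 * x ^ 2 + 2 * V.b₂ * x + 2 * V.b₄ = 0 := by
    have : (12 * x ^ 2 + 2 * V.b₂ * x + 2 * V.b₄) ^ 2 = 0 := by linear_combination h0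
    exact pow_eq_zero_iff two_ne_zero |>.mp this
  rw [f2_eq_sq h.1] at hf
  have h2 : y = V.negY x y := sub_eq_zero.mp (pow_eq_zero_iff two_ne_zero |>.mp hf)
  have hn := (nonsingular_iff x y).mp h
  rcases hn.2 with h3 | h3
  · apply h3
    simp only [negY] at h2
    simp only [WeierstrassCurve.b₂, WeierstrassCurve.b₄] at h1
    have h4 : (4 : K) ≠ 0 := by norm_num
    apply mul_left_cancel₀ h4
    linear_combination (-1 : K) * h1 + (2 * V.a₁) * h2
  · exact h3 h2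

lemma p3_eq_zero_of_three_nsmul {x y : K} (h : V.Nonsingular x y)
    (h3 : (3 : ℕ) • some x y h = 0) : p3 V x = 0 := by
  have hP : some x y h + some x y h = - some x y h := by
    rw [eq_neg_iff_add_eq_zero, ← h3]; abel
  by_cases hf : f2 V x = 0
  · rw [dbl_zero h hf] at hP
    exact absurd (neg_eq_zero.mp hP.symm) (some_ne_zero h)
  · obtain ⟨y', h', hd⟩ := dbl_some h hf
    rw [hd] at hP
    have hx : g2 V x / f2 V x = x := X_eq_iff.mpr (Or.inr hP)
    rw [div_eq_iff hf] at hx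
    have := g2_sub (b₂ := V.b₂) (b₄ := V.b₄) (b₆ := V.b₆) (b₈ := V.b₈) x
    have h4 : G2 V.b₄ V.b₆ V.b₈ x = x * F2 V.b₂ V.b₄ V.b₆ x := hx
    rw [h4, sub_self] at this
    exact neg_eq_zero.mp this.symm

lemma three_nsmul_of_p3 {x y : K} (h : V.Nonsingular x y) (hp : p3 V x = 0) :
    (3 : ℕ) • some x y h = 0 := by
  have hf := f2_ne_zero_of_p3 h hp
  obtain ⟨y', h', hd⟩ := dbl_some h hf
  have hx : g2 V x / f2 V x = x := by
    rw [div_eq_iff hf]
    have := g2_sub (b₂ := V.b₂) (b₄ := V.b₄) (b₆ := V.b₆) (b₈ := V.b₈) x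
    rw [show P3 V.b₂ V.b₄ V.b₆ V.b₈ x = 0 from hp, _root_.neg_zero] at this
    exact sub_eq_zero.mp this
  rcases (X_eq_iff (h₁ := h') (h₂ := h)).mp hx with h1 | h1
  · rw [← hd] at h1
    exact absurd (add_eq_left.mp h1) (some_ne_zero h)
  · rw [← hd] at h1
    have : (3 : ℕ) • some x y h = (some x y h + some x y h) + some x y h := by abel
    rw [this, h1]; abel

/-- Data attached to a point of order `5`. -/
lemma five_torsion_data {u y : K} (h : V.Nonsingular u y) (h5 : (5 : ℕ) • some u y h = 0) :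
    ∃ (v y' : K) (h' : V.Nonsingular v y'), (2 : ℕ) • some u y h = some v y' h' ∧ u ≠ v ∧
      f2 V u ≠ 0 ∧ f2 V v ≠ 0 ∧ g2 V u = v * f2 V u ∧ g2 V v = u * f2 V v := by
  obtain ⟨P, hPdef⟩ : ∃ P, P = some u y h := ⟨_, rfl⟩
  have hP0 : P ≠ 0 := hPdef ▸ some_ne_zero h
  have hfu : f2 V u ≠ 0 := by
    intro hf
    have h2 := dbl_zero h hf
    rw [← hPdef] at h2 h5
    apply hP0
    have : P = (5 : ℕ) • P - (2 : ℕ) • (P + P) := by abel
    rw [this, h5, h2]; simp
  obtain ⟨y', h', hd⟩ := dbl_some h hfu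
  obtain ⟨v, hv⟩ : ∃ v, v = g2 V u / f2 V u := ⟨_, rfl⟩
  subst hv
  have hfv : f2 V (g2 V u / f2 V u) ≠ 0 := by
    intro hf
    have h2 := dbl_zero h' hf
    rw [← hd, ← hPdef] at h2
    rw [← hPdef] at h5
    apply hP0
    have : P = (5 : ℕ) • P - ((P + P) + (P + P)) := by abel
    rw [this, h5, h2]; simp
  obtain ⟨y'', h'', hd'⟩ := dbl_some h' hfv
  refine ⟨_, y', h', by rw [two_nsmul, hd], ?_, hfu, hfv, (div_eq_iff hfu).mp rfl, ?_⟩
  · intro huv
    rcases (X_eq_iff (h₁ := h) (h₂ := h')).mp huv with h1 | h1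
    · rw [← hd, ← hPdef] at h1
      exact hP0 (left_eq_add.mp h1)
    · rw [← hd, ← hPdef] at h1
      rw [← hPdef] at h5
      apply hP0
      have : P = (2 : ℕ) • (P - -(P + P)) - (5 : ℕ) • P := by abel
      rw [this, h5, ← h1]; simp
  · have h4 : some _ _ h'' = - some u y h := by
      rw [← hd', ← hd, ← hPdef, eq_neg_iff_add_eq_zero]
      rw [← hPdef] at h5
      rw [← h5]; abel
    have hx := X_eq_iff.mpr (Or.inr h4)
    exact (div_eq_iff hfv).mp hx

/-- A root of `ψ₅` gives a point of order `5`. -/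
lemma five_nsmul_of_p5 {u y : K} (h : V.Nonsingular u y) (hp : p5 V u = 0) :
    (5 : ℕ) • some u y h = 0 := by
  obtain ⟨P, hPdef⟩ : ∃ P, P = some u y h := ⟨_, rfl⟩
  have hP0 : P ≠ 0 := hPdef ▸ some_ne_zero h
  have hp' : q4 V u * f2 V u ^ 2 = p3 V u ^ 3 := sub_eq_zero.mp hp
  have hfu : f2 V u ≠ 0 := by
    intro hf
    rw [hf] at hp'
    have : p3 V u = 0 := by
      have : p3 V u ^ 3 = 0 := by rw [← hp']; ring
      exact pow_eq_zero_iff three_ne_zero |>.mp this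
    exact f2_ne_zero_of_p3 h this hf
  obtain ⟨y', h', hd⟩ := dbl_some h hfu
  have hF := F2_dbl V.b_relation hfu
  have hG := G2_dbl V.b_relation hfu
  rw [show P5 V.b₂ V.b₄ V.b₆ V.b₈ u = 0 from hp, mul_zero] at hG
  have hG' := (mul_eq_zero.mp hG).resolve_right (pow_ne_zero 4 hfu)
  -- `ψ₃(u) ≠ 0`
  have hp3 : p3 V u ≠ 0 := by
    intro h3
    have h3P := three_nsmul_of_p3 h h3
    have hq : q4 V u = 0 := by
      rw [h3] at hp'
      have : q4 V u * f2 V u ^ 2 = 0 := by rw [hp']; ring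
      exact (mul_eq_zero.mp this).resolve_right (pow_ne_zero 2 hfu)
    rw [show Q4 V.b₂ V.b₄ V.b₆ V.b₈ u = 0 from hq] at hF
    have hfv : f2 V (g2 V u / f2 V u) = 0 := by
      have : f2 V (g2 V u / f2 V u) * f2 V u ^ 3 = 0 := by rw [hF]; ring
      exact (mul_eq_zero.mp this).resolve_right (pow_ne_zero 3 hfu)
    have h2 := dbl_zero h' hfv
    rw [← hd, ← hPdef] at h2
    rw [← hPdef] at h3P
    apply hP0
    have : P = ((P + P) + (P + P)) - (3 : ℕ) • P := by abel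
    rw [this, h3P, h2]; simp
  have hq : q4 V u ≠ 0 := by
    intro hq
    rw [hq, zero_mul] at hp'
    exact hp3 (pow_eq_zero_iff three_ne_zero |>.mp hp'.symm)
  have hfv : f2 V (g2 V u / f2 V u) ≠ 0 := by
    intro hf
    rw [show F2 V.b₂ V.b₄ V.b₆ (G2 V.b₄ V.b₆ V.b₈ u / F2 V.b₂ V.b₄ V.b₆ u) = 0 from hf,
      zero_mul] at hF
    exact hq (pow_eq_zero_iff two_ne_zero |>.mp hF.symm)
  obtain ⟨y'', h'', hd'⟩ := dbl_some h' hfv
  have hx : g2 V (g2 V u / f2 V u) / f2 V (g2 V u / f2 V u) = u := by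
    rw [div_eq_iff hfv]; exact sub_eq_zero.mp hG'
  rcases (X_eq_iff (h₁ := h'') (h₂ := h)).mp hx with h1 | h1
  · -- `4 P = P`, so `3 P = 0`, contradiction
    exfalso
    apply hp3
    apply p3_eq_zero_of_three_nsmul h
    rw [← hd', ← hd, ← hPdef] at h1
    rw [← hPdef]
    have : (3 : ℕ) • P = ((P + P) + (P + P)) - P := by abel
    rw [this, h1]; simp
  · rw [← hd', ← hd, ← hPdef] at h1
    rw [← hPdef]
    have : (5 : ℕ) • P = ((P + P) + (P + P)) + P := by abel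
    rw [this, h1]; simp

end Torsion

end Fermat.Agent.S51
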